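import Fermat.Agent.GWEuler.LocTwo.Rank
import Fermat.Agent.GWEuler.DefectAdditive

/-!
# The hypothesis `RankTwo` from the regular module

`rankTwo`: localisation in degree two has the expected rank for every module trivial on an
adapted layer, given surjectivity for the regular module.
-/

set_option autoImplicit false

noncomputable section

open CategoryTheory Module groupCohomology ExtCitation

namespace FLTAgent.GWEuler.LocTwo

open FLTAgent.GalCoh FLTAgent.GlobalDuality

variable {p : ℕ} [Fact p.Prime]

local notation "Γℚ" => AlgebraicClosure ℚ ≃ₐ[ℚ] AlgebraicClosure ℚ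

/-- The rank of localisation in degree two for a module trivial on an adapted layer. -/
theorem rankTwo (hp2 : p ≠ 2) (R : Reciprocity p) {S : Finset Nat.Primes} {L : Layer}
    (hL : IsAdapted (p := p) L S) (hfree : TwoSurj R S (permMod p L))
    (M : Rep.{0} (ZMod p) Γℚ) [FiniteDimensional (ZMod p) M]
    (htriv : ∀ g ∈ L.sub, M.ρ g = 1) : RankTwo S M :=
  finrank_range_locTotal₂S hp2 R hL.pmem (sLevel_of_layer hL.isS htriv)
    (hfree.of_trivial htriv)

end FLTAgent.GWEuler.LocTwo
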