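import Fermat.Agent.GWEuler.LocTwo.GlobalPart
import Fermat.Agent.GWEuler.LocTwo.RankTwo

/-!
# Localisation in degree two for the regular module

`twoSurj_permMod`: every family of local functionals on the invariants of the functions on the
Galois group of an adapted layer which kills the constants comes from a global class.
-/

set_option autoImplicit false

noncomputable section

open CategoryTheory Module groupCohomology ExtCitation

namespace FLTAgent.GWEuler.LocTwo

open FLTAgent.GalCoh FLTAgent.LocalDuality FLTAgent.GlobalDuality FLTAgent.IdeleClassCohomology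

variable {p : ℕ} [hp : Fact p.Prime]

theorem smul_eq_mk_mul (L : Layer) (g : Gam) (x : Gam ⧸ L.sub) :
    g • x = (g : Gam ⧸ L.sub) * x := by
  induction x using QuotientGroup.induction_on with
  | _ y => rfl

/-- The functional of evaluation against a family of values. -/
def sumFun {L : Layer} [Fintype (Gam ⧸ L.sub)] (f : Gam ⧸ L.sub → ZMod p) :
    Dual (ZMod p) (Gam ⧸ L.sub → ZMod p) :=
  ∑ x, f x • LinearMap.proj x

theorem sumFun_apply {L : Layer} [Fintype (Gam ⧸ L.sub)] (f m : Gam ⧸ L.sub → ZMod p) :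
    sumFun f m = ∑ x, m x * f x := by
  simp only [sumFun, LinearMap.sum_apply, LinearMap.smul_apply, LinearMap.proj_apply, smul_eq_mul,
    mul_comm]

/-- The case of the regular module. -/
theorem twoSurj_free (hp2 : p ≠ 2) {L : Layer} {S : Finset Nat.Primes} (hL : L.IsS S)
    (hpS : pPrime p ∈ S) (hmu : ∀ g ∈ L.sub, cycloChar p g = 1) :
    TwoSurj (reciprocity hp2) S (permMod p L) := by
  classical
  have := L.finite
  have := Fintype.ofFinite (Gam ⧸ L.sub)
  intro lam hlam
  let Inv : Nat.Primes → Submodule (ZMod p) (Gam ⧸ L.sub → ZMod p) := fun q =>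
    (Rep.res (primeLocalToGlobal q) (permMod p L)).ρ.invariants
  choose ext hext using fun q : S =>
    LinearMap.exists_extend (p := Inv q.1) (lam q :)
  let lamF : Nat.Primes → ((Gam ⧸ L.sub → ZMod p) →ₗ[ZMod p] ZMod p) := fun q =>
    if hq : q ∈ S then ext ⟨q, hq⟩ else 0
  have hlamF : ∀ (q : S) (c : (Rep.res (primeLocalToGlobal q.1) (permMod p L)).ρ.invariants),
      lamF q.1 c.1 = lam q c := fun q c => by
    simp only [lamF, dif_pos q.2]
    exact LinearMap.congr_fun (hext q) c
  have hone : (fun _ => 1 : Gam ⧸ L.sub → ZMod p) ∈ (permMod p L).ρ.invariants := fun g =>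
    funext fun x => permMod_apply L g _ x
  have hsum : ∑ q ∈ S, lamF q (fun _ => 1) = 0 := by
    refine (Finset.sum_coe_sort S fun q => lamF q (fun _ => 1)).symm.trans ?_
    refine Eq.trans (Finset.sum_congr rfl fun q _ => ?_) (hlam ⟨_, hone⟩)
    exact hlamF q (invRes q.1 (permMod p L) ⟨_, hone⟩)
  obtain ⟨M, L₄, f, hM, hL₄, hle, hlev, hcoc, hinv⟩ := exists_global hp2 hL hpS hmu lamF hsum
  let F : Gam × Gam → (permMod p L).dualTwist (cycloChar p) := fun gk =>
    (sumFun fun x => f gk.1 gk.2 x :)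
  have hF : F ∈ levelCocyclesS₂ S ((permMod p L).dualTwist (cycloChar p)) := by
    refine (mem_levelCocyclesS₂_iff S _ _).2 ⟨(mem_cocycles₂_iff _).2 fun g k j => ?_,
      L₄.field, hL₄, fun g k s t hs ht => congrArg sumFun (funext fun x => hlev g k s hs t ht x)⟩
    refine LinearMap.ext fun m : Gam ⧸ L.sub → ZMod p => ?_
    show sumFun (fun x => f (g * k) j x) m + sumFun (fun x => f g k x) m
      = (cycloChar p g : ZMod p) * sumFun (fun x => f k j x) ((permRho p L) g⁻¹ m)
        + sumFun (fun x => f g (k * j) x) m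
    simp only [sumFun_apply]
    rw [← Finset.sum_add_distrib, Finset.mul_sum,
      Fintype.sum_equiv (Equiv.mulLeft (g : Gam ⧸ L.sub))
        (fun x => (cycloChar p g : ZMod p) * ((permRho p L g⁻¹ m) x * f k j x))
        (fun x => (cycloChar p g : ZMod p) * (m x * f k j ((g : Gam ⧸ L.sub)⁻¹ * x))) fun x => by
          rw [Equiv.coe_mulLeft, inv_mul_cancel_left]
          show _ * (m (g⁻¹⁻¹ • x) * _) = _
          rw [inv_inv, smul_eq_mk_mul],
      ← Finset.sum_add_distrib]
    refine Finset.sum_congr rfl fun x _ => ?_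
    rw [← mul_add, hcoc, mul_add, mul_left_comm]
  have hM0 : (M : ZMod p) ≠ 0 := fun h0 => hM ((ZMod.natCast_eq_zero_iff M p).1 h0)
  refine ⟨(M : ZMod p)⁻¹ • continuousH2Sπ S _ ⟨F, hF⟩, fun q => LinearMap.ext fun c => ?_⟩
  have hc : ∀ (τ : LGal q.1) (x : Gam ⧸ L.sub),
      (show Gam ⧸ L.sub → ZMod p from c.1) ((loc q.1 τ : Gam ⧸ L.sub) * x)
        = (show Gam ⧸ L.sub → ZMod p from c.1) x := fun τ x => by
    have h1 := congrFun (c.2 τ⁻¹) x
    refine Eq.trans ?_ h1
    refine Eq.trans ?_ (permMod_apply L _ _ x).symm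
    refine congrArg (show Gam ⧸ L.sub → ZMod p from c.1) ?_
    exact ((congrArg (fun g : Gam => g • x)
      ((congrArg (·⁻¹) (map_inv (loc q.1) τ)).trans (inv_inv _))).trans
        (smul_eq_mk_mul L _ x)).symm
  rw [map_smul, map_smul, LinearMap.smul_apply, smul_eq_mul]
  have h1 : thetaLoc q.1 (reciprocity hp2) (permMod p L)
      (locRes₂S S ((permMod p L).dualTwist (cycloChar p)) (primeLocalToGlobal q.1)
        (continuousH2Sπ S _ ⟨F, hF⟩)) c = (M : ZMod p) * lamF q.1 c.1 := by
    rw [thetaLoc_apply]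
    refine (invMu_cls hp2 q.1 _).trans ?_
    refine Eq.trans ?_ (hinv q.1 q.2 (show Gam ⧸ L.sub → ZMod p from c.1) hc)
    refine congrArg (fun g => cochainInv hp2 q.1 (muFun q.1 g)) (funext fun ττ => ?_)
    exact sumFun_apply _ _
  rw [h1, hlamF, ← mul_assoc, inv_mul_cancel₀ hM0, one_mul]

/-- The case of the regular module of an adapted layer. -/
theorem twoSurj_permMod (hp2 : p ≠ 2) {L : Layer} {S : Finset Nat.Primes}
    (hA : IsAdapted (p := p) L S) : TwoSurj (reciprocity hp2) S (permMod p L) :=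
  twoSurj_free hp2 hA.isS hA.pmem hA.mu

end FLTAgent.GWEuler.LocTwo
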