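import Fermat.Agent.GWEuler.UnramifiedLocal
import Fermat.Agent.GWEuler.LocalEuler.Sequence
import Fermat.Agent.GWEuler.Pairing

/-!
# Local degree two is dual to the invariants

`thetaLoc_bijective`: the map `H²(N) → Dual((N^∨(1))^G)` is injective by local duality and
surjective because an invariant functional becomes a coboundary on functions of an unramified
degree with values in `N`, whose period is a multiple of `p`.
-/

set_option autoImplicit false

noncomputable section

open CategoryTheory Module groupCohomology ExtCitation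

namespace FLTAgent.GWEuler.LocTwo

open FLTAgent.LocalDuality

variable {p : ℕ} [Fact p.Prime] {q : Nat.Primes}

variable (p q) in
/-- The local cyclotomic character. -/
abbrev psiLoc : primeLocalGaloisGroup q →* (ZMod p)ˣ := (cycloChar p).comp (primeLocalToGlobal q)

local notation "rq" => primeLocalToGlobal q

section DegreeModule

variable {P : ℕ} (d : primeLocalGaloisGroup q → ZMod P)

/-- Functions of an unramified degree with values in `N`. -/
def degRep (hd : ∀ g h, d (g * h) = d g + d h) (N : Rep.{0} (ZMod p) (primeLocalGaloisGroup q)) :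
    Rep.{0} (ZMod p) (primeLocalGaloisGroup q) :=
  Rep.of
    ({ toFun := fun g =>
        { toFun := fun F i => N.ρ g (F (i - d g))
          map_add' := fun _ _ => funext fun _ => map_add _ _ _
          map_smul' := fun _ _ => funext fun _ => map_smul _ _ _ }
       map_one' := LinearMap.ext fun F => funext fun i => by
         have h1 : d 1 = 0 := by simpa using hd 1 1
         simp [h1]
       map_mul' := fun g h => LinearMap.ext fun F => funext fun i => by
         show N.ρ (g * h) (F (i - d (g * h))) = N.ρ g (N.ρ h (F (i - d g - d h)))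
         rw [map_mul, hd, sub_add_eq_sub_sub]
         rfl } :
      Representation (ZMod p) (primeLocalGaloisGroup q) (ZMod P → N))

variable (hd : ∀ g h, d (g * h) = d g + d h) (N : Rep.{0} (ZMod p) (primeLocalGaloisGroup q))

theorem degRep_apply (g : primeLocalGaloisGroup q) (F : ZMod P → N) (i : ZMod P) :
    (show ZMod P → N from (degRep d hd N).ρ g F) i = N.ρ g (F (i - d g)) := rfl

theorem isSmooth_degRep (hN : IsSmooth rq N) (hlev : IsLevelConstant₁ rq d) :
    IsSmooth rq (degRep d hd N) := by
  obtain ⟨F₁, hF₁, h₁⟩ := hN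
  obtain ⟨F₂, hF₂, h₂⟩ := hlev
  have := hF₁; have := hF₂
  refine ⟨F₁ ⊔ F₂, inferInstance, fun s hs => LinearMap.ext fun F => funext fun i => ?_⟩
  have hd0 : d s = 0 := by
    have h := h₂ 1 s (levelSubgroup_anti rq le_sup_right hs)
    rw [one_mul] at h
    rw [h]
    simpa using hd 1 1
  refine (degRep_apply d hd N s F i).trans ?_
  rw [h₁ s (levelSubgroup_anti rq le_sup_left hs), hd0, sub_zero]
  rfl

/-- The constant functions. -/
def constMap : N →ₗ[ZMod p] degRep d hd N where
  toFun v := fun _ => v
  map_add' _ _ := rfl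
  map_smul' _ _ := rfl

theorem constMap_equiv (g : primeLocalGaloisGroup q) (v : N) :
    constMap d hd N (N.ρ g v) = (degRep d hd N).ρ g (constMap d hd N v) := rfl

end DegreeModule

/-- An invariant functional is detected in degree two. -/
theorem exists_alpha_ne_zero {N : Rep.{0} (ZMod p) (primeLocalGaloisGroup q)}
    [FiniteDimensional (ZMod p) N] (hN : IsSmooth rq N)
    (f : (N.dualTwist (psiLoc p q)).ρ.invariants)
    (hf : f ≠ 0) : ∃ z, alpha rq (psiLoc p q) N f z ≠ 0 := by
  classical
  have : FiniteDimensional (ZMod p) (N.dualTwist (psiLoc p q)) :=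
    inferInstanceAs (FiniteDimensional (ZMod p) (Dual (ZMod p) N))
  obtain ⟨N₀, hN₀, hper⟩ := exists_period (N.dualTwist (psiLoc p q))
  set P := p * N₀ with hPdef
  have : NeZero P := ⟨(Nat.mul_pos (Fact.out : p.Prime).pos hN₀).ne'⟩
  obtain ⟨deg, -, hadd, hfrob, -, hlev⟩ := exists_degree q P (NeZero.pos P)
  let d : primeLocalGaloisGroup q → ZMod P := fun g => (deg g : ZMod P)
  have hd : ∀ g h, d (g * h) = d g + d h := fun g h => by
    show (deg (g * h) : ZMod P) = deg g + deg h
    rw [← Nat.cast_add]
    exact (ZMod.natCast_eq_natCast_iff _ _ _).mpr (hadd g h)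
  have hdφ : d (locFrob q) = 1 := by
    have h := hfrob 1
    rw [pow_one] at h
    show (deg (locFrob q) : ZMod P) = 1
    rw [← Nat.cast_one]
    exact (ZMod.natCast_eq_natCast_iff _ _ _).mpr h
  let Q := degRep d hd N
  let ι : N →ₗ[ZMod p] Q := constMap d hd N
  have hι : ∀ g v, ι (N.ρ g v) = Q.ρ g (ι v) := constMap_equiv d hd N
  let C : Rep.{0} (ZMod p) (primeLocalGaloisGroup q) := Rep.of (Q.ρ.quotient (LinearMap.range ι)
    fun g _ ⟨v, hv⟩ => ⟨N.ρ g v, by rw [hι, hv]⟩)
  have : FiniteDimensional (ZMod p) Q := inferInstanceAs (FiniteDimensional (ZMod p) (ZMod P → N))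
  have : FiniteDimensional (ZMod p) C :=
    inferInstanceAs (FiniteDimensional (ZMod p) (Q ⧸ LinearMap.range ι))
  let S : SmoothSES rq N Q C :=
    { ι := ι
      π := (LinearMap.range ι).mkQ
      ι_equiv := hι
      π_equiv := fun _ _ => rfl
      ι_injective := fun a b h => congrFun (show (fun _ : ZMod P => a) = fun _ => b from h) 0
      π_surjective := (LinearMap.range ι).mkQ_surjective
      exact := fun b => Submodule.Quotient.mk_eq_zero _
      smooth := isSmooth_degRep d hd N hN ((hlev).comp (fun n : ℕ => (n : ZMod P))) }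
  have hψ : SmoothChar rq (psiLoc p q) := smoothChar_loc q
  have hδ : (S.dual hψ).delta₀ f ≠ 0 := by
    intro h0
    have hmem : f ∈ LinearMap.range (LocalEuler.invπ (S.dual hψ)) := by
      rw [← LocalEuler.ker_delta₀]; exact h0
    obtain ⟨Φ, hΦ⟩ := hmem
    refine hf (Subtype.ext (LinearMap.ext fun v => ?_))
    rw [← hΦ]
    show (show Dual (ZMod p) Q from Φ.1) (ι v) = 0
    let φs : ℕ → Dual (ZMod p) N := fun n =>
      (show Dual (ZMod p) Q from Φ.1).comp
        (LinearMap.single (ZMod p) (fun _ : ZMod P => N) (n : ZMod P))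
    have hstep : ∀ n, φs (n + 1) = (N.dualTwist (psiLoc p q)).ρ (locFrob q) (φs n) := fun n => by
      refine LinearMap.ext fun u => ?_
      have h := LinearMap.congr_fun (Φ.2 (locFrob q))
        (show Q from (LinearMap.single (ZMod p) (fun _ : ZMod P => N) ((n + 1 : ℕ) : ZMod P)) u)
      refine h.symm.trans ?_
      show ((psiLoc p q) (locFrob q) : ZMod p) *
        (show Dual (ZMod p) Q from Φ.1) (Q.ρ (locFrob q)⁻¹ _)
        = ((psiLoc p q) (locFrob q) : ZMod p) * φs n (N.ρ (locFrob q)⁻¹ u)
      congr 1
      refine congrArg (show Dual (ZMod p) Q from Φ.1) (funext fun i => ?_)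
      refine (degRep_apply d hd N _ _ i).trans ?_
      have hdi : d (locFrob q)⁻¹ = -1 := by
        have h1 : d (1 : primeLocalGaloisGroup q) = 0 := by simpa using hd 1 1
        have h2 := hd (locFrob q)⁻¹ (locFrob q)
        rw [inv_mul_cancel, h1, hdφ] at h2
        exact eq_neg_of_add_eq_zero_left h2.symm
      rw [hdi, sub_neg_eq_add]
      show N.ρ (locFrob q)⁻¹
          ((Pi.single (((n + 1 : ℕ) : ZMod P)) u : ZMod P → N) (i + 1))
        = (Pi.single ((n : ℕ) : ZMod P) (N.ρ (locFrob q)⁻¹ u) : ZMod P → N) i
      rw [Nat.cast_succ]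
      by_cases hi : i = (n : ZMod P)
      · subst hi; rw [Pi.single_eq_same, Pi.single_eq_same]
      · rw [Pi.single_eq_of_ne hi,
          Pi.single_eq_of_ne (fun hh => hi (add_right_cancel hh)), map_zero]
    have hpow : ∀ n, φs n = ((N.dualTwist (psiLoc p q)).ρ (locFrob q) ^ n) (φs 0) := fun n => by
      induction n with
      | zero => rfl
      | succ n ih => rw [hstep, pow_succ', Module.End.mul_apply, ← ih]
    have hperiod : ∀ n, φs (N₀ + n) = φs n := fun n => by
      rw [hpow, hpow n, pow_add, hper, one_mul]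
    have hsum : ∀ k, ∑ n ∈ Finset.range (k * N₀), φs n v
        = k • ∑ n ∈ Finset.range N₀, φs n v := by
      intro k
      induction k with
      | zero => simp
      | succ k ih =>
        rw [Nat.succ_mul, Nat.add_comm, Finset.sum_range_add, succ_nsmul']
        congr 1
        rw [← ih]
        exact Finset.sum_congr rfl fun n _ => by rw [hperiod]
    have hconst : ι v = ∑ i : ZMod P,
        (show Q from (LinearMap.single (ZMod p) (fun _ : ZMod P => N) i) v) := by
      show (fun _ : ZMod P => v) = ∑ i : ZMod P, Pi.single i v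
      exact (Finset.univ_sum_single _).symm
    rw [hconst, map_sum]
    refine Eq.trans ?_ ((hsum p).trans ?_)
    · refine Finset.sum_nbij' (fun i : ZMod P => i.val) (fun n : ℕ => (n : ZMod P))
        (fun i _ => Finset.mem_range.mpr (ZMod.val_lt i)) (fun n _ => Finset.mem_univ _)
        (fun i _ => ZMod.natCast_zmod_val i)
        (fun n hn => ZMod.val_natCast_of_lt (Finset.mem_range.mp hn)) fun i _ => ?_
      show _ = (show Dual (ZMod p) Q from Φ.1) _
      rw [ZMod.natCast_zmod_val]
      rfl
    · rw [nsmul_eq_mul, ZMod.natCast_self, zero_mul]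
  by_contra hall
  push Not at hall
  refine hδ (eq_zero_of_pair_right hψ S.smooth_right
    (local_good (isSmooth_dualTwist hψ S.smooth_right)).left fun x => ?_)
  rw [← alpha_delta₁ hψ S x f]
  exact hall _

section Theta

local notation "Γℚ" => AlgebraicClosure ℚ ≃ₐ[ℚ] AlgebraicClosure ℚ

variable (R : Reciprocity p) {S : Finset Nat.Primes} (M : Rep.{0} (ZMod p) Γℚ) (q)

local notation "locM'" => Rep.res (primeLocalToGlobal q) (M.dualTwist (cycloChar p))

/-- Evaluation at a local invariant, as a map from the dual twist to `μ_p`. -/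
theorem evBil_loc_equiv (c : (Rep.res rq M).ρ.invariants) (g : primeLocalGaloisGroup q)
    (f : locM') :
    (evBil (cycloChar p) M c.1 : M.dualTwist (cycloChar p) →ₗ[ZMod p] ofChar (cycloChar p))
        ((locM').ρ g f)
      = (Rep.res rq (ofChar (cycloChar p))).ρ g
        ((evBil (cycloChar p) M c.1 : M.dualTwist (cycloChar p) →ₗ[ZMod p] ofChar (cycloChar p))
          f) := by
  show (cycloChar p (rq g) : ZMod p) * (show Dual (ZMod p) M from f) (M.ρ (rq g)⁻¹ c.1)
    = (cycloChar p (rq g) : ZMod p) * (show Dual (ZMod p) M from f) c.1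
  rw [← map_inv, show M.ρ (rq g⁻¹) c.1 = c.1 from c.2 g⁻¹]

/-- The class obtained by evaluating at an invariant. -/
def evalTwo (c : (Rep.res rq M).ρ.invariants) :
    continuousH2 rq locM' →ₗ[ZMod p] continuousH2 rq (Rep.res rq (ofChar (cycloChar p))) :=
  mapH₂ rq (A := locM') (B := Rep.res rq (ofChar (cycloChar p)))
    (evBil (cycloChar p) M c.1 : M.dualTwist (cycloChar p) →ₗ[ZMod p] ofChar (cycloChar p))
    (evBil_loc_equiv q M c)

/-- A degree-two class as a functional on the invariants. -/
def thetaLoc : continuousH2 rq locM' →ₗ[ZMod p] Dual (ZMod p) (Rep.res rq M).ρ.invariants where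
  toFun z :=
    { toFun := fun c => R.inv q (evalTwo q M c z)
      map_add' := fun c c' => by
        obtain ⟨z, rfl⟩ := cls₂_surjective z
        rw [← map_add]
        refine congrArg (R.inv q) ?_
        simp only [evalTwo, mapH₂_cls, ← map_add]
        exact congrArg _ (Subtype.ext (funext fun x =>
          LinearMap.congr_fun ((evBil (cycloChar p) M).map_add c.1 c'.1) _))
      map_smul' := fun a c => by
        obtain ⟨z, rfl⟩ := cls₂_surjective z
        rw [RingHom.id_apply, ← map_smul]
        refine congrArg (R.inv q) ?_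
        simp only [evalTwo, mapH₂_cls, ← map_smul]
        exact congrArg _ (Subtype.ext (funext fun x =>
          LinearMap.congr_fun ((evBil (cycloChar p) M).map_smul a c.1) _)) }
  map_add' z z' := LinearMap.ext fun c => by
    show R.inv q (evalTwo q M c (z + z')) = R.inv q (evalTwo q M c z) + R.inv q (evalTwo q M c z')
    rw [map_add, map_add]
  map_smul' a z := LinearMap.ext fun c => by
    show R.inv q (evalTwo q M c (a • z)) = a • R.inv q (evalTwo q M c z)
    rw [map_smul, map_smul]

theorem thetaLoc_apply (z : continuousH2 rq locM') (c : (Rep.res rq M).ρ.invariants) :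
    thetaLoc q R M z c = R.inv q (evalTwo q M c z) := rfl

variable [FiniteDimensional (ZMod p) M] (hM : SLevel S M)
include hM

theorem thetaLoc_bijective : Function.Bijective (thetaLoc q R M) := by
  have : FiniteDimensional (ZMod p) locM' :=
    inferInstanceAs (FiniteDimensional (ZMod p) (Dual (ZMod p) M))
  have : FiniteDimensional (ZMod p) (Rep.res rq M).ρ.invariants :=
    Module.Finite.of_injective ((Rep.res rq M).ρ.invariants.subtype :
      (Rep.res rq M).ρ.invariants →ₗ[ZMod p] M) Subtype.val_injective
  have hsm := hM.smooth_loc_dual (p := p) q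
  have hev : ∀ c : (Rep.res rq M).ρ.invariants,
      (show (Rep.res rq (M.dualTwist (cycloChar p))).dualTwist (psiLoc p q) from
        (Dual.eval (ZMod p) M c.1 : Dual (ZMod p) (Dual (ZMod p) M)))
        ∈ ((Rep.res rq (M.dualTwist (cycloChar p))).dualTwist (psiLoc p q)).ρ.invariants :=
    fun c g => LinearMap.ext fun f => by
      show (psiLoc p q g : ZMod p)
        * (evBil (cycloChar p) M c.1 : M.dualTwist (cycloChar p) →ₗ[ZMod p] ofChar (cycloChar p))
            ((locM').ρ g⁻¹ f) = _
      rw [evBil_loc_equiv q M c g⁻¹ f]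
      show (psiLoc p q g : ZMod p) * ((cycloChar p (rq g⁻¹) : ZMod p) * _) = _
      rw [← mul_assoc, map_inv, map_inv]
      show (cycloChar p (rq g) : ZMod p) * _ * _ = _
      rw [Units.mul_inv, one_mul]
      rfl
  constructor
  · rw [injective_iff_map_eq_zero]
    intro z hz
    refine (local_good hsm).detect z fun f => R.inv_injective q ?_
    obtain ⟨c, hc⟩ := (evalEquiv (ZMod p) M).surjective
      (show Dual (ZMod p) (Dual (ZMod p) M) from f.1)
    have hc' : c ∈ (Rep.res rq M).ρ.invariants := fun g => by
      refine Module.eval_apply_injective (ZMod p) (LinearMap.ext fun l => ?_)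
      have h := LinearMap.congr_fun (f.2 g) l
      rw [← show Dual.eval (ZMod p) M c = f.1 from hc] at h
      change (psiLoc p q g : ZMod p) * ((cycloChar p (rq g⁻¹) : ZMod p)
        * (show Dual (ZMod p) M from l) (M.ρ (rq g⁻¹)⁻¹ c)) = (show Dual (ZMod p) M from l) c at h
      rw [map_inv, inv_inv, map_inv, ← mul_assoc, show psiLoc p q g = cycloChar p (rq g) from rfl,
        Units.mul_inv, one_mul] at h
      exact h
    have h := LinearMap.congr_fun hz ⟨c, hc'⟩
    rw [thetaLoc_apply] at h
    refine Eq.trans ?_ (h.trans (map_zero (R.inv q)).symm)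
    refine congrArg (R.inv q) ?_
    obtain ⟨z, rfl⟩ := cls₂_surjective z
    exact congrArg (cls₂ rq _) (Subtype.ext (funext fun x => (LinearMap.congr_fun hc _).symm))
  · rw [← LinearMap.range_eq_top]
    by_contra htop
    obtain ⟨Φ, hΦ0, hΦ⟩ := Submodule.exists_dual_map_eq_bot_of_lt_top (lt_top_iff_ne_top.mpr htop)
      inferInstance
    obtain ⟨c, rfl⟩ := (evalEquiv (ZMod p) _).surjective Φ
    have hc0 : c ≠ 0 := fun h => hΦ0 (by rw [h, map_zero])
    obtain ⟨z, hz⟩ := exists_alpha_ne_zero hsm ⟨_, hev c⟩ fun h =>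
      hc0 (Subtype.ext (Module.eval_apply_injective (ZMod p)
        ((congrArg Subtype.val h).trans (map_zero _).symm)))
    refine hz (R.inv_injective q ?_)
    refine Eq.trans (Eq.trans ?_ (LinearMap.congr_fun
      (show evalEquiv (ZMod p) _ c ∘ₗ (LinearMap.range (thetaLoc q R M)).subtype = 0 from
        LinearMap.ext fun x => by
          have := Submodule.mem_map_of_mem (f := evalEquiv (ZMod p) _ c) x.2
          rwa [hΦ, Submodule.mem_bot] at this) ⟨_, ⟨z, rfl⟩⟩)) (map_zero (R.inv q)).symm
    rfl

end Theta

end FLTAgent.GWEuler.LocTwo
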