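import Fermat.Agent.GWEuler.LocTwo.Alpha
import Fermat.Agent.GlobalDuality.Idele

/-!
# Vocabulary for localisation in degree two

`TwoSurj R S M`: every family of local functionals killing the global invariants comes from a
global class.  `permMod` is the regular module of the Galois group of a layer.
-/

set_option autoImplicit false

noncomputable section

open CategoryTheory Module groupCohomology ExtCitation

namespace FLTAgent.GWEuler.LocTwo

open FLTAgent.LocalDuality FLTAgent.GalCoh FLTAgent.GlobalDuality

variable {p : ℕ} [Fact p.Prime]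

local notation "Γℚ" => AlgebraicClosure ℚ ≃ₐ[ℚ] AlgebraicClosure ℚ

/-- A global invariant is a local one. -/
def invRes (q : Nat.Primes) (M : Rep.{0} (ZMod p) Γℚ) :
    M.ρ.invariants →ₗ[ZMod p] (Rep.res (primeLocalToGlobal q) M).ρ.invariants where
  toFun c := ⟨c.1, fun g => c.2 (primeLocalToGlobal q g)⟩
  map_add' _ _ := rfl
  map_smul' _ _ := rfl

/-- Every family of local functionals on invariants which kills the global invariants comes from
a global class of degree two. -/
def TwoSurj (R : Reciprocity p) (S : Finset Nat.Primes) (M : Rep.{0} (ZMod p) Γℚ) : Prop :=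
  ∀ lam : ∀ q : S, Dual (ZMod p) (Rep.res (primeLocalToGlobal q.1) M).ρ.invariants,
    (∀ c : M.ρ.invariants, ∑ q : S, lam q (invRes q.1 M c) = 0) →
      ∃ z : continuousH2S S (M.dualTwist (cycloChar p)), ∀ q : S,
        thetaLoc q.1 R M
          (locRes₂S S (M.dualTwist (cycloChar p)) (primeLocalToGlobal q.1) z) = lam q

variable (p) in
/-- Functions on the Galois group of a layer. -/
def permRho (L : Layer) : Representation (ZMod p) Γℚ (Γℚ ⧸ L.sub → ZMod p) where
  toFun g := LinearMap.funLeft (ZMod p) (ZMod p) fun x => g⁻¹ • x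
  map_one' := LinearMap.ext fun f => funext fun x => by simp [LinearMap.funLeft_apply]
  map_mul' g h := LinearMap.ext fun f => funext fun x => by
    simp [LinearMap.funLeft_apply, mul_smul]

variable (p) in
/-- The regular module of the Galois group of a layer. -/
def permMod (L : Layer) : Rep.{0} (ZMod p) Γℚ := Rep.of (permRho p L)

theorem permMod_apply (L : Layer) (g : Γℚ) (f : Γℚ ⧸ L.sub → ZMod p) (x : Γℚ ⧸ L.sub) :
    (show Γℚ ⧸ L.sub → ZMod p from (permMod p L).ρ g f) x = f (g⁻¹ • x) := rfl

instance finite_permMod (L : Layer) : FiniteDimensional (ZMod p) (permMod p L) :=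
  inferInstanceAs (FiniteDimensional (ZMod p) (Γℚ ⧸ L.sub → ZMod p))

/-- A module trivial on a layer unramified outside `S` has level `S`. -/
theorem sLevel_of_layer {S : Finset Nat.Primes} {L : Layer} (hL : L.IsS S)
    {M : Rep.{0} (ZMod p) Γℚ} (htriv : ∀ g ∈ L.sub, M.ρ g = 1) : SLevel S M :=
  ⟨L.field, hL, htriv⟩

end FLTAgent.GWEuler.LocTwo
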