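import Fermat.Agent.GWEuler.LocTwo.QClass
import Fermat.Agent.GWEuler.GlobalUnits.UnitsClass
import Fermat.Agent.GlobalDuality.NonDegenLeft
import Fermat.Agent.GlobalDuality.Psi

/-!
# From idele cochains to roots of unity

`exists_mu_cocycle`: a two-cocycle of `S`-ideles with values in functions on the Galois group of a
layer, killed by `p` up to `S`-ideles and with sum dying in the classes, differs by a coboundary
from one with values in roots of unity, after a multiplication prime to `p`.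
-/

set_option autoImplicit false

noncomputable section

open ExtCitation

namespace FLTAgent.GWEuler.LocTwo

open FLTAgent.GalCoh FLTAgent.LocalDuality FLTAgent.GlobalDuality FLTAgent.IdeleClassCohomology

variable {L : Layer} {A B : Type} [AddCommGroup A] [DistribMulAction Gam A] [AddCommGroup B]
  [DistribMulAction Gam B]

/-- The differential of a one-cochain with values in functions on the Galois group of a layer. -/
def dQ (e : Gam → Gam ⧸ L.sub → A) (γ γ' : Gam) (x : Gam ⧸ L.sub) : A :=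
  γ • e γ' ((γ : Gam ⧸ L.sub)⁻¹ * x) - e (γ * γ') x + e γ x

theorem dQ_cocycle (e : Gam → Gam ⧸ L.sub → A) (g h j : Gam) (x : Gam ⧸ L.sub) :
    dQ e (g * h) j x + dQ e g h x = g • dQ e h j ((g : Gam ⧸ L.sub)⁻¹ * x) + dQ e g (h * j) x := by
  simp only [dQ, smul_add, smul_sub, mul_smul, QuotientGroup.mk_mul, mul_inv_rev, mul_assoc]
  abel

theorem map_dQ (φ : A →+ B) (hφ : ∀ (g : Gam) (a : A), φ (g • a) = g • φ a)
    (e : Gam → Gam ⧸ L.sub → A) (γ γ' : Gam) (x : Gam ⧸ L.sub) :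
    φ (dQ e γ γ' x) = dQ (fun g y => φ (e g y)) γ γ' x := by
  simp only [dQ, map_add, map_sub, hφ]

theorem nsmul_dQ (n : ℕ) (e : Gam → Gam ⧸ L.sub → A) (γ γ' : Gam) (x : Gam ⧸ L.sub) :
    n • dQ e γ γ' x = dQ (fun g y => n • e g y) γ γ' x := by
  simp only [dQ, nsmul_add, nsmul_sub, smul_comm n γ]

theorem dQ_add (e e' : Gam → Gam ⧸ L.sub → A) (γ γ' : Gam) (x : Gam ⧸ L.sub) :
    dQ (fun g y => e g y + e' g y) γ γ' x = dQ e γ γ' x + dQ e' γ γ' x := by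
  simp only [dQ, smul_add]
  abel

theorem dQ_sub (e e' : Gam → Gam ⧸ L.sub → A) (γ γ' : Gam) (x : Gam ⧸ L.sub) :
    dQ (fun g y => e g y - e' g y) γ γ' x = dQ e γ γ' x - dQ e' γ γ' x := by
  simp only [dQ, smul_sub]
  abel

/-- The differential of a zero-cochain is a cocycle. -/
theorem dQ_d0 (k : Gam ⧸ L.sub → A) (γ γ' : Gam) (x : Gam ⧸ L.sub) :
    dQ (fun g y => g • k ((g : Gam ⧸ L.sub)⁻¹ * y) - k y) γ γ' x = 0 := by
  simp only [dQ, smul_sub, mul_smul, QuotientGroup.mk_mul, mul_inv_rev, mul_assoc]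
  abel

/-- A differential of a cochain of a layer is a cochain of that layer. -/
theorem dQ_level {L₁ : Layer} (h : L₁.sub ≤ L.sub) {e : Gam → Gam ⧸ L.sub → A}
    (he : ∀ γ, ∀ a ∈ L₁.sub, ∀ x, e (γ * a) x = e γ x)
    (hv : ∀ γ x, e γ x ∈ fixedPts L₁.sub A) (γ γ' : Gam) {a : Gam} (ha : a ∈ L₁.sub)
    {b : Gam} (hb : b ∈ L₁.sub) (x : Gam ⧸ L.sub) :
    dQ e (γ * a) (γ' * b) x = dQ e γ γ' x := by
  have hconj : γ'⁻¹ * a * γ' ∈ L₁.sub := by
    simpa using (inferInstance : L₁.sub.Normal).conj_mem a ha γ'⁻¹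
  have h1 : γ * a * (γ' * b) = γ * γ' * (γ'⁻¹ * a * γ' * b) := by group
  rw [dQ, dQ, QuotientGroup.mk_mul_of_mem γ (h ha), mul_smul, he γ' b hb, hv γ' _ a ha,
    h1, he _ _ (mul_mem hconj hb), he γ a ha]

variable {p : ℕ} [hp : Fact p.Prime] [Fintype (Gam ⧸ L.sub)]

/-- A finite family of classes lifts, up to a multiple prime to `p`, to `S`-ideles of a layer. -/
private lemma exists_family_lift {S : Finset Nat.Primes} (hpS : pPrime p ∈ S) {L' : Layer}
    (hL' : L'.IsS S) {I : Type} [Finite I] (k : I → LayerC L') :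
    ∃ (m : ℕ) (L'' : Layer) (K : I → Idele), ¬p ∣ m ∧ L''.IsS S ∧ L''.sub ≤ L'.sub ∧
      (∀ i, K i ∈ sIdeles S) ∧ (∀ i, K i ∈ fixedPts L''.sub Idele) ∧
      ∀ i, classMap (K i) = m • (k i : IdeleClass) := by
  let φ : (I →₀ ℤ) →+ LayerC L' := Finsupp.liftAddHom fun i => zmultiplesHom (LayerC L') (k i)
  obtain ⟨m, L'', hh, hm, hL'', hle, hhS, hhfix, hhc⟩ :=
    exists_class_lift hpS hL' ((LayerC L').subtype.comp φ) fun r => (φ r).2
  refine ⟨m, L'', fun i => hh (Finsupp.single i 1), hm, hL'', hle, fun i => hhS _, fun i => hhfix _,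
    fun i => (hhc _).trans (congrArg (m • ·) ?_)⟩
  rw [AddMonoidHom.comp_apply, Finsupp.liftAddHom_apply_single, zmultiplesHom_apply, one_zsmul]
  rfl

/-- A cocycle of `S`-ideles dying in the classes is, up to a multiple prime to `p` and a
coboundary, one of `S`-units. -/
private lemma exists_unit_defect (hp2 : p ≠ 2) {S : Finset Nat.Primes} (hpS : pPrime p ∈ S)
    {L' : Layer} (h : L'.sub ≤ L.sub) (hL' : L'.IsS S)
    {s : Gam ⧸ L'.sub → Gam ⧸ L'.sub → QFun (quotMap h) (LayerJ L')}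
    (hs : s ∈ Z2 (Gam ⧸ L'.sub) (QFun (quotMap h) (LayerJ L')))
    (hsS : ∀ g g' x, (s g g' x : Idele) ∈ sIdeles S) {b : Gam ⧸ L'.sub → LayerC L'}
    (hsum : ∀ g g', fixedMap classMap classMap_smul L'.sub (∑ x, s g g' x)
      = g • b g' - b (g * g') + b g) :
    ∃ (M : ℕ) (L'' : Layer) (K : Gam → Gam ⧸ L.sub → Idele)
      (c : Gam → Gam → Gam ⧸ L.sub → GU), ¬p ∣ M ∧ L''.IsS S ∧ L''.sub ≤ L'.sub ∧
      (∀ γ x, K γ x ∈ sIdeles S) ∧ (∀ γ x, K γ x ∈ fixedPts L''.sub Idele) ∧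
      (∀ γ, ∀ a ∈ L''.sub, ∀ x, K (γ * a) x = K γ x) ∧ (∀ γ γ' x, c γ γ' x ∈ sUnits S) ∧
      ∀ γ γ' x, principal (c γ γ' x) = M • (s γ γ' x : Idele) - dQ K γ γ' x := by
  classical
  -- the classes are killed by a number prime to `p`
  have hcC : CompatPair (MonoidHom.id (Gam ⧸ L'.sub)) (fixedMap classMap classMap_smul L'.sub) :=
    ⟨fixedMap_smul classMap classMap_smul L'.sub⟩
  obtain ⟨m, k, hm, hk⟩ := exists_cobound_of_sum (p := p) (C := LayerC L') (quotMap_surjective h)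
    (exists_globalClass hp2 (classStep hp2) L')
    (fun K hK => (classes_pgroup_bound p (classStep hp2) L' K hK).2)
    ((QFun.compat_push (MonoidHom.comp_id (quotMap h)) hcC).mem_Z2 hs)
    (b := b) fun g g' => (map_sum _ _ _).symm.trans (hsum g g')
  -- lift to `S`-ideles
  obtain ⟨m', L'', hh, hm', hL'', hle, hhS, hhfix, hhc⟩ := exists_family_lift hpS hL'
    fun i : (Gam ⧸ L'.sub) × (Gam ⧸ L.sub) => k i.1 i.2
  let K : Gam → Gam ⧸ L.sub → Idele := fun γ x => hh (γ, x)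
  have hKc : ∀ γ x, classMap (K γ x) = m' • (k γ x : IdeleClass) := fun γ x => hhc _
  let E : Gam → Gam → Gam ⧸ L.sub → Idele :=
    fun γ γ' x => (m' * m) • (s γ γ' x : Idele) - dQ K γ γ' x
  have hE : ∀ γ γ' x, classMap (E γ γ' x) = 0 := fun γ γ' x => by
    have h1 : m • classMap (s γ γ' x : Idele)
        = γ • (k γ' ((γ : Gam ⧸ L.sub)⁻¹ * x) : IdeleClass) - (k ↑(γ * γ') x : IdeleClass)
          + (k γ x : IdeleClass) :=
      congrArg Subtype.val (congrFun (hk (γ : Gam ⧸ L'.sub) γ') x)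
    show classMap ((m' * m) • _ - _) = 0
    rw [map_sub, map_nsmul, map_dQ classMap classMap_smul, mul_smul, h1, sub_eq_zero]
    simp only [dQ, hKc, nsmul_add, nsmul_sub, smul_comm m' γ]
  choose c hc using fun γ γ' x => (classMap_eq_zero_iff _).1 (hE γ γ' x)
  refine ⟨m' * m, L'', K, c, ?_, hL'', hle, fun γ x => hhS _, fun γ x => hhfix _,
    fun γ a ha x => ?_, fun γ γ' x => ?_, hc⟩
  · simp only [hp.out.dvd_mul]
    tauto
  · show hh _ = hh _
    rw [QuotientGroup.mk_mul_of_mem γ (hle ha)]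
  · show principal (c γ γ' x) ∈ sIdeles S
    rw [hc]
    exact sub_mem (nsmul_mem (hsS _ _ _) _)
      (add_mem (sub_mem (smul_mem_sIdeles S γ (hhS _)) (hhS _)) (hhS _))

omit [Fintype (Gam ⧸ L.sub)] in
/-- The defect of a cocycle inherits its level and the cocycle identity. -/
private lemma defect_level_cocycle {L' L'' : Layer} {h : L'.sub ≤ L.sub}
    (hle : L''.sub ≤ L'.sub) {s : Gam ⧸ L'.sub → Gam ⧸ L'.sub → QFun (quotMap h) (LayerJ L')}
    (hs : s ∈ Z2 (Gam ⧸ L'.sub) (QFun (quotMap h) (LayerJ L')))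
    {K : Gam → Gam ⧸ L.sub → Idele} (hKinv : ∀ γ, ∀ a ∈ L''.sub, ∀ x, K (γ * a) x = K γ x)
    (hKfix : ∀ γ x, K γ x ∈ fixedPts L''.sub Idele) {M : ℕ} {c : Gam → Gam → Gam ⧸ L.sub → GU}
    (hc : ∀ γ γ' x, principal (c γ γ' x) = M • (s γ γ' x : Idele) - dQ K γ γ' x) :
    (∀ γ γ', ∀ a ∈ L''.sub, ∀ a' ∈ L''.sub, ∀ x, c (γ * a) (γ' * a') x = c γ γ' x) ∧
      ∀ g h' j x, c (g * h') j x + c g h' x
        = g • c h' j ((g : Gam ⧸ L.sub)⁻¹ * x) + c g (h' * j) x := by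
  refine ⟨fun γ γ' a ha a' ha' x => principal_injective ?_, fun g h' j x => principal_injective ?_⟩
  · rw [hc, hc, dQ_level (hle.trans h) hKinv hKfix γ γ' ha ha',
      QuotientGroup.mk_mul_of_mem γ (hle ha), QuotientGroup.mk_mul_of_mem γ' (hle ha')]
  · have hcocs : (s ↑(g * h') ↑j x : Idele) + (s ↑g ↑h' x : Idele)
        = g • (s ↑h' ↑j ((g : Gam ⧸ L.sub)⁻¹ * x) : Idele) + (s ↑g ↑(h' * j) x : Idele) :=
      congrArg Subtype.val (congrFun (hs (g : Gam ⧸ L'.sub) h' j) x)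
    rw [map_add, map_add, principal_smul, hc, hc, hc, hc, sub_add_sub_comm, ← nsmul_add, hcocs,
      dQ_cocycle, nsmul_add, ← smul_comm g M, smul_sub, sub_add_sub_comm]

omit [Fintype (Gam ⧸ L.sub)] in
/-- A one-cocycle of classes of a layer is, up to a multiple prime to `p`, a coboundary. -/
private lemma exists_class_primitive (hp2 : p ≠ 2) {L'' : Layer} (h : L''.sub ≤ L.sub)
    {u : Gam → Gam ⧸ L.sub → Idele} (hufix : ∀ γ x, u γ x ∈ fixedPts L''.sub Idele)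
    (huinv : ∀ γ, ∀ a ∈ L''.sub, ∀ x, u (γ * a) x = u γ x)
    (huz : ∀ g g' x, dQ (fun γ y => classMap (u γ y)) g g' x = 0) :
    ∃ (m : ℕ) (K₀ : Gam ⧸ L.sub → LayerC L''), ¬p ∣ m ∧ ∀ γ x, m • classMap (u γ x)
      = γ • (K₀ ((γ : Gam ⧸ L.sub)⁻¹ * x) : IdeleClass) - (K₀ x : IdeleClass) := by
  classical
  set π := quotMap h
  have hπ : ∀ γ : Gam, π γ = (γ : Gam ⧸ L.sub) := fun γ => quotMap_mk _ γ
  let cuf : Gam → QFun π (LayerC L'') := fun γ x =>
    fixedMap classMap classMap_smul L''.sub ⟨u γ x, hufix γ x⟩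
  have hcuf : ∀ γ, ∀ a ∈ L''.sub, cuf (γ * a) = cuf γ := fun γ a ha =>
    funext fun x => Subtype.ext (congrArg classMap (huinv γ a ha x))
  set cu := lvl1 L''.sub cuf
  have hcu : cu ∈ Z1 (Gam ⧸ L''.sub) (QFun π (LayerC L'')) := mem_Z1_iff.2 fun a a' => by
    induction a using QuotientGroup.induction_on with
    | _ g =>
      induction a' using QuotientGroup.induction_on with
      | _ g' =>
        simp only [cu]
        rw [← QuotientGroup.mk_mul, lvl1_mk _ hcuf, lvl1_mk _ hcuf, lvl1_mk _ hcuf]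
        refine funext fun x => Subtype.ext ?_
        show classMap (u (g * g') x) = g • classMap (u g' ((π g)⁻¹ * x)) + classMap (u g x)
        rw [hπ]
        have h1 := huz g g' x
        simp only [dQ] at h1
        linear_combination (norm := abel) -h1
  have hz : pCompl p π.ker • H1.mk (⟨fun a => cu a 1, (compat_evalOne le_rfl).mem_Z1 hcu⟩ :
      Z1 π.ker (LayerC L'')) = 0 :=
    classes_H1_torsion (classStep hp2) L'' π.ker _
  rw [← map_nsmul, H1.mk_eq_zero_iff] at hz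
  obtain ⟨a₀, ha₀⟩ := hz
  obtain ⟨K₀, hK₀⟩ := exists_qd0 (quotMap_surjective h) (f := pCompl p π.ker • cu)
    (AddSubgroup.nsmul_mem _ hcu _) (k := a₀) fun a ha => ha₀ ⟨a, ha⟩
  refine ⟨pCompl p π.ker, K₀, ?_, fun γ x => ?_⟩
  · have := Fintype.ofFinite π.ker
    exact not_dvd_pCompl
  · have h1 := congrFun (hK₀ (γ : Gam ⧸ L''.sub)) x
    change pCompl p π.ker • (cu γ) x = _ at h1
    rw [show cu γ = cuf γ from lvl1_mk _ hcuf γ] at h1
    rw [← hπ]
    exact congrArg Subtype.val h1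

omit [Fintype (Gam ⧸ L.sub)] in
/-- Up to a multiple prime to `p`, `p` times the defect is a coboundary of `S`-units. -/
private lemma exists_unit_primitive (hp2 : p ≠ 2) {S : Finset Nat.Primes} (hpS : pPrime p ∈ S)
    {L'' : Layer} (hL'' : L''.IsS S) (h : L''.sub ≤ L.sub) {u : Gam → Gam ⧸ L.sub → Idele}
    (huS : ∀ γ x, u γ x ∈ sIdeles S) (hufix : ∀ γ x, u γ x ∈ fixedPts L''.sub Idele)
    (huinv : ∀ γ, ∀ a ∈ L''.sub, ∀ x, u (γ * a) x = u γ x)
    {c : Gam → Gam → Gam ⧸ L.sub → GU} (hu : ∀ γ γ' x, dQ u γ γ' x = p • principal (c γ γ' x)) :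
    ∃ (N : ℕ) (L₃ : Layer) (e : Gam → Gam ⧸ L.sub → GU), ¬p ∣ N ∧ L₃.IsS S ∧
      L₃.sub ≤ L''.sub ∧ (∀ γ x, e γ x ∈ sUnits S) ∧
      (∀ γ, ∀ a ∈ L₃.sub, ∀ x, e (γ * a) x = e γ x) ∧
      ∀ γ γ' x, dQ e γ γ' x = p • N • c γ γ' x := by
  classical
  obtain ⟨m₃, K₀, hm₃, hK₀⟩ := exists_class_primitive (p := p) hp2 h hufix huinv fun g g' x => by
    rw [← map_dQ classMap classMap_smul u g g' x, hu, map_nsmul,
      (classMap_eq_zero_iff _).2 ⟨_, rfl⟩, smul_zero]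
  obtain ⟨m₄, L₃, K₁, hm₄, hL₃, hle₃, hK₁S, hK₁fix, hK₁c⟩ := exists_family_lift hpS hL'' K₀
  set N := m₄ * m₃
  have he₀ : ∀ γ x,
      classMap (N • u γ x - (γ • K₁ ((γ : Gam ⧸ L.sub)⁻¹ * x) - K₁ x)) = 0 := fun γ x => by
    rw [map_sub classMap (N • u γ x), map_nsmul classMap N (u γ x), map_sub classMap (γ • _),
      classMap_smul, hK₁c, hK₁c, mul_smul, hK₀, nsmul_sub, smul_comm m₄ γ, sub_self]
  choose e he using fun γ x => (classMap_eq_zero_iff _).1 (he₀ γ x)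
  refine ⟨N, L₃, e, ?_, hL₃, hle₃, fun γ x => ?_, fun γ a ha x => principal_injective ?_,
    fun γ γ' x => principal_injective ?_⟩
  · simp only [N, hp.out.dvd_mul]
    tauto
  · show principal (e γ x) ∈ sIdeles S
    rw [he]
    exact sub_mem (nsmul_mem (huS _ _) _) (sub_mem (smul_mem_sIdeles S γ (hK₁S _)) (hK₁S _))
  · rw [he, he, huinv γ a (hle₃ ha), mul_smul γ a,
      QuotientGroup.mk_mul_of_mem γ ((hle₃.trans h) ha),
      show a • K₁ ((γ : Gam ⧸ L.sub)⁻¹ * x) = _ from hK₁fix _ a ha]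
  · rw [map_dQ principal principal_smul, map_nsmul, map_nsmul, smul_comm p N, ← hu]
    simp only [he]
    rw [dQ_sub, dQ_d0, sub_zero, nsmul_dQ]

/-- A cochain of `S`-units of a layer is `p` times one of a larger layer. -/
private lemma exists_root_cochain {S : Finset Nat.Primes} (hpS : pPrime p ∈ S) {L₃ : Layer}
    (hL₃ : L₃.IsS S) {e : Gam → Gam ⧸ L.sub → GU} (heS : ∀ γ x, e γ x ∈ sUnits S)
    (heinv : ∀ γ, ∀ a ∈ L₃.sub, ∀ x, e (γ * a) x = e γ x) :
    ∃ (L₄ : Layer) (e' : Gam → Gam ⧸ L.sub → GU), L₄.IsS S ∧ L₄.sub ≤ L₃.sub ∧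
      (∀ γ x, e' γ x ∈ fixedPts L₄.sub GU) ∧
      (∀ γ, ∀ a ∈ L₄.sub, ∀ x, e' (γ * a) x = e' γ x) ∧ ∀ γ x, p • e' γ x = e γ x := by
  classical
  choose r hr using fun a : GU => show ∃ r, a ∈ sUnits S → r ∈ sUnits S ∧ p • r = a from by
    by_cases ha : a ∈ sUnits S
    · obtain ⟨r, h1, h2⟩ := sUnits_exists_root hpS ha
      exact ⟨r, fun _ => ⟨h1, h2⟩⟩
    · exact ⟨0, fun h => absurd h ha⟩
  have := Fintype.ofFinite (Gam ⧸ L₃.sub)
  obtain ⟨L₄, hL₄, hle₄, hfix⟩ := exists_layer_units (S := S) hL₃ Finset.univ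
    (fun i : (Gam ⧸ L₃.sub) × (Gam ⧸ L.sub) => r (e i.1.out i.2)) fun i _ => (hr _ (heS _ _)).1
  refine ⟨L₄, fun γ x => r (e γ x), hL₄, hle₄, fun γ x => ?_,
    fun γ a ha x => congrArg r (heinv γ a (hle₄ ha) x), fun γ x => (hr _ (heS _ _)).2⟩
  obtain ⟨a, ha⟩ := QuotientGroup.mk_out_eq_mul L₃.sub γ
  have h1 : r (e (γ : Gam ⧸ L₃.sub).out x) = r (e γ x) := by rw [ha, heinv γ a a.2]
  show r (e γ x) ∈ fixedPts L₄.sub GU
  rw [← h1]
  exact hfix ((γ : Gam ⧸ L₃.sub), x) (Finset.mem_univ _)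

/-- A cocycle of ideles killed by `p` and dying in the classes comes from roots of unity. -/
theorem exists_mu_cocycle (hp2 : p ≠ 2) {S : Finset Nat.Primes} (hpS : pPrime p ∈ S)
    {L' : Layer} (h : L'.sub ≤ L.sub) (hL' : L'.IsS S)
    {s : Gam ⧸ L'.sub → Gam ⧸ L'.sub → QFun (quotMap h) (LayerJ L')}
    (hs : s ∈ Z2 (Gam ⧸ L'.sub) (QFun (quotMap h) (LayerJ L')))
    {t : Gam ⧸ L'.sub → QFun (quotMap h) (LayerJ L')}
    (hpt : ∀ g g', p • s g g' = g • t g' - t (g * g') + t g)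
    (hsS : ∀ g g' x, (s g g' x : Idele) ∈ sIdeles S)
    (htS : ∀ g x, (t g x : Idele) ∈ sIdeles S)
    {b : Gam ⧸ L'.sub → LayerC L'}
    (hsum : ∀ g g', fixedMap classMap classMap_smul L'.sub (∑ x, s g g' x)
      = g • b g' - b (g * g') + b g) :
    ∃ (M : ℕ) (L₄ : Layer) (f : Gam → Gam → Gam ⧸ L.sub → ZMod p)
      (Φ : Gam → Gam ⧸ L.sub → Idele), ¬p ∣ M ∧ L₄.IsS S ∧ L₄.sub ≤ L'.sub ∧
      (∀ γ γ', ∀ a ∈ L₄.sub, ∀ a' ∈ L₄.sub, ∀ x, f (γ * a) (γ' * a') x = f γ γ' x) ∧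
      (∀ g h' j x, f (g * h') j x + f g h' x
        = (cycloChar p g : ZMod p) * f h' j ((g : Gam ⧸ L.sub)⁻¹ * x) + f g (h' * j) x) ∧
      (∀ γ, ∀ a ∈ L₄.sub, ∀ x, Φ (γ * a) x = Φ γ x) ∧
      (∀ γ x, Φ γ x ∈ fixedPts L₄.sub Idele) ∧
      ∀ γ γ' x, principal (torsionHom p (f γ γ' x))
        = M • (s γ γ' x : Idele) - dQ Φ γ γ' x := by
  classical
  obtain ⟨M₁, L'', K, c, hM₁, hL'', hle, hKS, hKfix, hKinv, -, hc⟩ :=
    exists_unit_defect (p := p) hp2 hpS h hL' hs hsS hsum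
  obtain ⟨hclev, hccoc⟩ := defect_level_cocycle hle hs hKinv hKfix hc
  -- `p` times the cocycle is the boundary of `u`
  let u : Gam → Gam ⧸ L.sub → Idele := fun γ x => M₁ • (t γ x : Idele) - p • K γ x
  have hu : ∀ γ γ' x, dQ u γ γ' x = p • principal (c γ γ' x) := fun γ γ' x => by
    have h1 : p • (s γ γ' x : Idele) = dQ (fun (g : Gam) y => (t g y : Idele)) γ γ' x :=
      congrArg Subtype.val (congrFun (hpt (γ : Gam ⧸ L'.sub) γ') x)
    rw [hc, dQ_sub, ← nsmul_dQ, ← nsmul_dQ, nsmul_sub, smul_comm p M₁, h1]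
  obtain ⟨N, L₃, e, hN, hL₃, hle₃, heS, heinv, hde⟩ :=
    exists_unit_primitive (p := p) hp2 hpS hL'' (hle.trans h) (u := u)
      (fun γ x => sub_mem (nsmul_mem (htS _ _) _) (nsmul_mem (hKS _ _) _))
      (fun γ x =>
        sub_mem (nsmul_mem (fixedPts_antitone hle (t γ x).2) _) (nsmul_mem (hKfix _ _) _))
      (fun γ a ha x => by
        show M₁ • _ - p • K _ x = M₁ • _ - p • _
        rw [QuotientGroup.mk_mul_of_mem γ (hle ha), hKinv γ a ha])
      hu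
  -- take `p`-th roots
  obtain ⟨L₄, e', hL₄, hle₄, he'fix, he'inv, he'⟩ := exists_root_cochain hpS hL₃ heS heinv
  have hb : ∀ γ γ' x, p • (N • c γ γ' x - dQ e' γ γ' x) = 0 := fun γ γ' x => by
    rw [nsmul_sub, nsmul_dQ, sub_eq_zero, ← hde]
    simp only [he']
  choose f hf using fun γ γ' x => exists_torsionHom_eq p (hb γ γ' x)
  have hle4' : L₄.sub ≤ L''.sub := hle₄.trans hle₃
  refine ⟨N * M₁, L₄, f, fun γ x => N • K γ x + principal (e' γ x), ?_, hL₄, hle4'.trans hle,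
    fun γ γ' a ha a' ha' x => torsionHom_injective p ?_,
    fun g h' j x => torsionHom_injective p ?_, fun γ a ha x => ?_, fun γ x => ?_,
    fun γ γ' x => ?_⟩
  · simp only [hp.out.dvd_mul]
    tauto
  · rw [hf, hf, dQ_level (hle4'.trans (hle.trans h)) he'inv he'fix γ γ' ha ha',
      hclev γ γ' a (hle4' ha) a' (hle4' ha')]
  · rw [map_add, map_add, ← smul_torsionHom, hf, hf, hf, hf, sub_add_sub_comm, ← nsmul_add,
      hccoc, dQ_cocycle, nsmul_add, ← smul_comm g N, smul_sub, sub_add_sub_comm]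
  · show N • K (γ * a) x + principal (e' (γ * a) x) = _
    rw [hKinv γ a (hle4' ha), he'inv γ a ha]
  · exact add_mem (nsmul_mem (fixedPts_antitone hle4' (hKfix _ _)) _)
      (principal_mem_fixedPts_iff.2 (he'fix γ x))
  · rw [hf, map_sub, map_nsmul, hc, map_dQ principal principal_smul, dQ_add, ← nsmul_dQ,
      nsmul_sub, sub_sub, smul_smul N M₁]

end FLTAgent.GWEuler.LocTwo
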