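import Fermat.Agent.GlobalDuality.Roots
import Fermat.Agent.GlobalDuality.Local
import Fermat.Agent.IdeleClassCohomology.Places
import Fermat.Agent.GWEuler.GlobalUnits.Adapted
import Fermat.Agent.GWEuler.ModuleLevel
import Fermat.Agent.GlobalDuality.CycRam

/-!
# Enlarging a layer so that local degrees become divisible by `p`

A finite extension of `ℚ_q` has finitely many roots of unity of `p`-power order, so a high
cyclotomic level moves every decomposition group inside a layer containing `μ_p`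
(`exists_grow`).
-/

set_option autoImplicit false

noncomputable section

namespace FLTAgent.GWEuler.LocTwo

open FLTAgent.GalCoh FLTAgent.LocalDuality FLTAgent.GlobalDuality FLTAgent.IdeleClassCohomology
  ExtCitation

variable {p : ℕ} [hp : Fact p.Prime]

/-- A nontrivial root of unity of `p`-power order is at distance at least `‖p‖` from `1`. -/
theorem norm_natCast_le_norm_one_sub {q : Nat.Primes} {t : PadicAlgCl (q : ℕ)} {k : ℕ}
    (ht : t ^ p ^ k = 1) (hne : t ≠ 1) :
    ‖(p : PadicAlgCl (q : ℕ))‖ ≤ ‖1 - t‖ := by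
  have hnorm : ∀ {z : PadicAlgCl (q : ℕ)} {n : ℕ}, n ≠ 0 → z ^ n = 1 → ‖z‖ = 1 :=
    fun {z n} hn h => (pow_eq_one_iff_of_nonneg (norm_nonneg _) hn).1 (by
      rw [← norm_pow, h, norm_one])
  have hnt := hnorm (pow_ne_zero k hp.out.ne_zero) ht
  -- a power of `t` of exact order `p`
  classical
  have hex : ∃ j, t ^ p ^ j = 1 := ⟨k, ht⟩
  have hj0 : Nat.find hex ≠ 0 := fun h => hne (by
    have := Nat.find_spec hex
    rwa [h, pow_zero, pow_one] at this)
  obtain ⟨j, hj⟩ := Nat.exists_eq_succ_of_ne_zero hj0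
  set z := t ^ p ^ j
  have hz1 : z ≠ 1 := Nat.find_min hex (by omega)
  have hzp : z ^ p = 1 := by
    rw [← pow_mul, ← pow_succ]
    have := Nat.find_spec hex
    rwa [hj] at this
  obtain ⟨n, hn⟩ : ∃ n, p = n + 1 := ⟨p - 1, by have := hp.out.pos; omega⟩
  have hprim : IsPrimitiveRoot z (n + 1) :=
    hn ▸ (IsPrimitiveRoot.iff_orderOf).2 (orderOf_eq_prime hzp hz1)
  have hz0 : ‖z‖ ≤ 1 := (hnorm hp.out.ne_zero hzp).le
  have h := congrArg (fun x : PadicAlgCl (q : ℕ) => ‖x‖) hprim.prod_one_sub_pow_eq_order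
  simp only [norm_prod] at h
  have hn1 : 0 < n := by have := hp.out.two_le; omega
  have h1 : ∏ i ∈ Finset.range n, ‖1 - z ^ (i + 1)‖ ≤ ‖1 - z‖ := by
    rw [← Finset.prod_erase_mul _ _ (Finset.mem_range.2 hn1), zero_add, pow_one]
    refine mul_le_of_le_one_left (norm_nonneg _) (Finset.prod_le_one (fun i _ => norm_nonneg _)
      fun i _ => ?_)
    refine (norm_one_sub_pow_le hz0 _).trans ?_
    rw [sub_eq_add_neg]
    refine (IsUltrametricDist.norm_add_le_max _ _).trans (max_le (le_of_eq norm_one) ?_)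
    rw [norm_neg]; exact hz0
  calc ‖(p : PadicAlgCl (q : ℕ))‖ = ∏ i ∈ Finset.range n, ‖1 - z ^ (i + 1)‖ := by
        rw [h, hn, Nat.cast_succ]
    _ ≤ ‖1 - z‖ := h1
    _ ≤ ‖1 - t‖ := norm_one_sub_pow_le hnt.le _

/-- A finite extension of `ℚ_q` has finitely many roots of unity of `p`-power order. -/
theorem finite_pPowerRoots {q : Nat.Primes}
    (K : IntermediateField ℚ_[(q : ℕ)] (PadicAlgCl (q : ℕ))) [FiniteDimensional ℚ_[(q : ℕ)] K] :
    {z : K | ∃ k : ℕ, z ^ p ^ k = 1}.Finite := by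
  have : ProperSpace K := FiniteDimensional.proper ℚ_[(q : ℕ)] K
  set c := ‖(p : PadicAlgCl (q : ℕ))‖
  have hc : 0 < c := norm_pos_iff.2 (Nat.cast_ne_zero.2 hp.out.ne_zero)
  have hn : ∀ z : K, (∃ k : ℕ, z ^ p ^ k = 1) → ‖(z : PadicAlgCl (q : ℕ))‖ = 1 :=
    fun z ⟨k, hk⟩ => (pow_eq_one_iff_of_nonneg (norm_nonneg _) (pow_ne_zero k hp.out.ne_zero)).1
      (by rw [← norm_pow, ← SubmonoidClass.coe_pow, hk]; exact norm_one)
  obtain ⟨t, -, htf, hcover⟩ := Metric.finite_approx_of_totallyBounded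
    (isCompact_closedBall (0 : K) 1).totallyBounded (c / 2) (half_pos hc)
  have hin : ∀ z ∈ {z : K | ∃ k : ℕ, z ^ p ^ k = 1}, ∃ y ∈ t, dist z y < c / 2 := fun z hz => by
    have h1 : z ∈ Metric.closedBall (0 : K) 1 := by
      rw [mem_closedBall_zero_iff]
      exact (hn z hz).le
    simpa using hcover h1
  choose! f hft hfd using hin
  refine Set.Finite.of_finite_image (htf.subset ?_) ?_ (f := f)
  · rintro _ ⟨z, hz, rfl⟩
    exact hft z hz
  · intro z hz w hw hzw
    by_contra hne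
    have h1 : dist z w < c := by
      calc dist z w ≤ dist z (f z) + dist w (f z) := dist_triangle_right _ _ _
        _ < c / 2 + c / 2 := add_lt_add (hfd z hz) (hzw ▸ hfd w hw)
        _ = c := add_halves c
    obtain ⟨a, ha⟩ := hz
    obtain ⟨b, hb⟩ := hw
    have hw1 := hn w ⟨b, hb⟩
    have hw0 : (w : PadicAlgCl (q : ℕ)) ≠ 0 := norm_ne_zero_iff.1 (by rw [hw1]; exact one_ne_zero)
    set u := (z : PadicAlgCl (q : ℕ)) / w
    have hu : u ^ p ^ (a + b) = 1 := by
      rw [div_pow, pow_add, pow_mul, ← SubmonoidClass.coe_pow z, ha, mul_comm, pow_mul,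
        ← SubmonoidClass.coe_pow w, hb]
      simp
    have hu1 : u ≠ 1 := fun h => hne (Subtype.ext ((div_eq_one_iff_eq hw0).1 h))
    have h2 := norm_natCast_le_norm_one_sub (p := p) hu hu1
    rw [one_sub_div hw0, norm_div, hw1, div_one, norm_sub_rev] at h2
    exact absurd h1 (not_lt.2 h2)

/-- The decomposition group inside a layer moves a root of unity of `p`-power order. -/
theorem exists_moved_root (L : Layer) (q : Nat.Primes) :
    ∃ n : ℕ, ∀ ζ : QQbar, IsPrimitiveRoot ζ (p ^ n) →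
      ∃ τ : LGal q, loc q τ ∈ L.sub ∧ loc q τ ζ ≠ ζ := by
  classical
  have := L.finite
  have := finiteDimensional_locField (K := L.field) (q := q) (σ := 1)
  have hfin := finite_pPowerRoots (p := p) (locField L.field q 1)
  refine ⟨hfin.toFinset.card, fun ζ hζ => ?_⟩
  by_contra hno
  push Not at hno
  set n := hfin.toFinset.card
  have hmem : emb q ζ ∈ locField L.field q 1 := by
    rw [← InfiniteGalois.fixedField_fixingSubgroup (locField L.field q 1),
      IntermediateField.mem_fixedField_iff]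
    intro τ hτ
    have h1 := mem_fixingSubgroup_locField_iff.1 hτ
    rw [inv_one, one_mul, mul_one] at h1
    rw [← padicEmbedding_localGaloisToGlobal (q : ℕ) τ ζ]
    exact congrArg (emb q) (hno τ h1)
  set z : locField L.field q 1 := ⟨emb q ζ, hmem⟩
  have hprim : IsPrimitiveRoot z (p ^ n) :=
    IsPrimitiveRoot.of_map_of_injective (f := (locField L.field q 1).val)
      (hζ.map_of_injective (f := emb q) (emb q).injective) Subtype.val_injective
  have hinj : Set.InjOn (fun i => z ^ i) (Finset.range (p ^ n)) := fun i hi j hj h =>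
    hprim.pow_inj (Finset.mem_range.1 hi) (Finset.mem_range.1 hj) h
  have hle : p ^ n ≤ n := by
    have := Finset.card_le_card (s := (Finset.range (p ^ n)).image fun i => z ^ i)
      (t := hfin.toFinset) fun x hx => by
        obtain ⟨i, -, rfl⟩ := Finset.mem_image.1 hx
        rw [Set.Finite.mem_toFinset]
        exact ⟨n, by rw [← pow_mul, mul_comm, pow_mul, hprim.pow_eq_one, one_pow]⟩
    rwa [Finset.card_image_of_injOn hinj, Finset.card_range] at this
  exact absurd hle (not_le.2 (Nat.lt_pow_self hp.out.one_lt))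

/-- Above a layer containing `μ_p` there is an `S`-layer all of whose local degrees at `S` over it
are divisible by `p`. -/
theorem exists_grow {L : Layer} {S : Finset Nat.Primes} (hL : L.IsS S) (hpS : pPrime p ∈ S)
    (hmu : ∀ g ∈ L.sub, cycloChar p g = 1) :
    ∃ L' : Layer, L'.IsS S ∧ ∃ h : L'.sub ≤ L.sub,
      ∀ q ∈ S, p ∣ Nat.card ((quotMap h).comp (locMap L' q)).ker := by
  classical
  choose n hn using fun q : S => exists_moved_root (p := p) L q.1
  set N := Finset.univ.sup n + 1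
  have : NeZero (p ^ N) := ⟨pow_ne_zero _ hp.out.ne_zero⟩
  obtain ⟨ζ, hζ⟩ := HasEnoughRootsOfUnity.exists_primitiveRoot QQbar (p ^ N)
  have hpow : ∀ g : Gam, ∃ a, a < p ^ N ∧ ζ ^ a = g ζ := fun g =>
    hζ.eq_pow_of_pow_eq_one (by rw [← map_pow, hζ.pow_eq_one, map_one])
  let N' : Subgroup Gam :=
    { carrier := {g | g ∈ L.sub ∧ g ζ = ζ}
      one_mem' := ⟨one_mem _, rfl⟩
      mul_mem' := fun {g h} hg hh => ⟨mul_mem hg.1 hh.1, by rw [AlgEquiv.mul_apply, hh.2, hg.2]⟩
      inv_mem' := fun {g} hg => ⟨inv_mem hg.1, by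
        conv_lhs => rw [← hg.2]
        exact g.symm_apply_apply ζ⟩ }
  have : N'.Normal := ⟨fun g hg h => ⟨L.sub_normal.conj_mem g hg.1 h, by
    obtain ⟨a, -, ha⟩ := hpow h⁻¹
    rw [AlgEquiv.mul_apply, AlgEquiv.mul_apply, ← ha, map_pow, hg.2, ha]
    exact h.apply_symm_apply ζ⟩⟩
  obtain ⟨M, hM⟩ := exists_layer_fix ζ
  have hle : (L.sup M).sub ≤ N' := fun s hs =>
    ⟨Layer.sub_le (L.le_sup_left M) hs, hM s (Layer.sub_le (L.le_sup_right M) hs)⟩
  obtain ⟨L', hL', hsub⟩ := exists_layer_of_subgroup (S := S) N' hle fun q hq A hA g hg =>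
    ⟨hL.2 q hq A hA hg, inertia_fixes_root_of_unity hA hg (fun hd => hq (by
      rwa [show q = pPrime p from Subtype.ext ((Nat.prime_dvd_prime_iff_eq q.2 hp.out).1
        (q.2.dvd_of_dvd_pow hd))])) hζ.pow_eq_one⟩
  have h' : L'.sub ≤ L.sub := fun s hs => by
    rw [hsub] at hs
    exact hs.1
  refine ⟨L', hL', h', fun q hq => ?_⟩
  obtain ⟨j, hj⟩ : ∃ j, N = n ⟨q, hq⟩ + j :=
    ⟨N - n ⟨q, hq⟩, by have := Finset.le_sup (f := n) (Finset.mem_univ ⟨q, hq⟩); omega⟩
  obtain ⟨τ, hτ, hne⟩ := hn ⟨q, hq⟩ (ζ ^ p ^ j)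
    (hζ.pow (Nat.pos_of_ne_zero (NeZero.ne _)) (by rw [← pow_add, add_comm, ← hj]))
  have hτζ : loc q τ ζ ≠ ζ := fun h => hne (by rw [map_pow, h])
  set d : ((quotMap h').comp (locMap L' q)).ker := ⟨QuotientGroup.mk τ, by
    rw [MonoidHom.mem_ker, MonoidHom.comp_apply, locMap_mk, quotMap_mk,
      QuotientGroup.eq_one_iff]
    exact hτ⟩
  have hd1 : d ≠ 1 := fun h => hτζ (by
    have h1 : (QuotientGroup.mk τ : LocG L' q) = 1 := congrArg Subtype.val h
    rw [QuotientGroup.eq_one_iff, Subgroup.mem_comap, hsub] at h1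
    exact h1.2)
  have hdpow : d ^ p ^ N = 1 := by
    obtain ⟨a, -, ha⟩ := hpow (loc q τ)
    -- `a ≡ 1 mod p` as `loc τ` fixes `μ_p`
    have hN : N = (N - 1) + 1 := (Nat.sub_add_cancel (Nat.le_add_left 1 _)).symm
    set w := ζ ^ p ^ (N - 1)
    have hw : IsPrimitiveRoot w p := hζ.pow (Nat.pos_of_ne_zero (NeZero.ne _))
      (by rw [← pow_succ, ← hN])
    have hwfix : loc q τ w = w := by
      refine (IntermediateField.mem_fixingSubgroup_iff _ _).1 hτ w ?_
      exact hasRoots_of_mu hmu w hw.pow_eq_one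
    have hamod : a % p = 1 := by
      have h1 : w ^ a = w ^ 1 := by
        rw [pow_one, ← pow_mul, mul_comm, pow_mul, ha, ← map_pow]
        exact hwfix
      refine hw.pow_inj (Nat.mod_lt _ hp.out.pos) hp.out.one_lt ?_
      rw [← h1]
      conv_rhs => rw [← Nat.mod_add_div a p, pow_add, pow_mul, hw.pow_eq_one, one_pow, mul_one]
    have hiter : ∀ m : ℕ, ((loc q τ) ^ m) ζ = ζ ^ a ^ m := fun m => by
      induction m with
      | zero => simp
      | succ m ih => rw [pow_succ', AlgEquiv.mul_apply, ih, map_pow, ← ha, ← pow_mul, pow_succ']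
    refine Subtype.ext ?_
    show (QuotientGroup.mk τ : LocG L' q) ^ p ^ N = 1
    rw [← QuotientGroup.mk_pow, QuotientGroup.eq_one_iff, Subgroup.mem_comap, map_pow, hsub]
    refine ⟨pow_mem hτ _, ?_⟩
    rw [hiter]
    have hdiv : (p : ℤ) ^ N ∣ (a : ℤ) ^ p ^ N - 1 := by
      have h1 : (p : ℤ) ∣ (a : ℤ) - 1 := by
        refine ⟨a / p, ?_⟩
        have := Nat.mod_add_div a p
        rw [hamod] at this
        have h2 : (1 : ℤ) + p * (a / p : ℕ) = a := by exact_mod_cast this
        push_cast at h2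
        omega
      have := dvd_sub_pow_of_dvd_sub h1 N
      rw [one_pow] at this
      exact (pow_dvd_pow _ (Nat.le_succ N)).trans this
    have hmod : a ^ p ^ N ≡ 1 [MOD p ^ N] :=
      ((Nat.modEq_iff_dvd).2 (by push_cast; exact hdiv)).symm
    have hpm := hζ.pow_eq_one
    calc ζ ^ a ^ p ^ N = ζ ^ (a ^ p ^ N % p ^ N) := by
          conv_lhs => rw [← Nat.mod_add_div (a ^ p ^ N) (p ^ N), pow_add, pow_mul, hpm, one_pow,
            mul_one]
      _ = ζ := by rw [hmod, Nat.one_mod_eq_one.2 (Nat.one_lt_pow (by omega) hp.out.one_lt).ne',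
            pow_one]
  obtain ⟨i, -, hi⟩ := (Nat.dvd_prime_pow hp.out).1 (orderOf_dvd_of_pow_eq_one hdpow)
  rcases i with _ | i
  · exact absurd (orderOf_eq_one_iff.1 (hi.trans (pow_zero p))) hd1
  · exact (dvd_pow_self p (Nat.succ_ne_zero i)).trans (hi ▸ orderOf_dvd_natCard d)

end FLTAgent.GWEuler.LocTwo
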