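import Fermat.Agent.GWEuler.LocTwo.LocalPart
import Fermat.Agent.GWEuler.LocTwo.Descend
import Fermat.Agent.GWEuler.LocTwo.GrowLayer
import Fermat.Agent.GWEuler.ReciprocityProof

/-!
# A global class with prescribed local invariants

`exists_global`: for functionals on functions on the Galois group of a layer with values at one
adding up to zero there is a cocycle with values in roots of unity, unramified outside `S`, with a
fixed multiple of them as local invariants.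
-/

set_option autoImplicit false

noncomputable section

open CategoryTheory groupCohomology ExtCitation

namespace FLTAgent.GWEuler.LocTwo

open FLTAgent.GalCoh FLTAgent.LocalDuality FLTAgent.GlobalDuality FLTAgent.IdeleClassCohomology

variable {L L' : Layer} (h : L'.sub ≤ L.sub) (q : Nat.Primes)

theorem baseMap_mk (τ : LGal q) :
    baseMap h q (QuotientGroup.mk τ) = (loc q τ : Gam ⧸ L.sub) := by
  show quotMap h (locMap L' q (QuotientGroup.mk τ)) = _
  rw [locMap_mk, quotMap_mk]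

theorem nsmul_supp2 (n : ℕ) (F : LocG L' q → LocG L' q → QFun (baseMap h q) (LocU L' q))
    (g g' : Gam ⧸ L'.sub) :
    n • supp2 h q F g g' = supp2 h q (fun d d' => n • F d d') g g' := by
  refine QFun.ext fun x => Subtype.ext (Idele.ext fun r γ => ?_)
  show Idele.atHom r γ (n • (supp2 h q F g g' x : Idele))
    = (supp2 h q (fun d d' => n • F d d') g g' x : Idele).at r γ
  rw [map_nsmul]
  show n • (supp2 h q F g g' x : Idele).at r γ = _
  rcases eq_or_ne r q with rfl | hr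
  · simp only [supp2, at_suppIdele_self]
    exact congrArg (fun u : LocU L' r => (u : LU r))
      (smul_comm n (cosetD (locMap L' r) (QuotientGroup.mk γ))
        (F (kap (locMap L' r) (QuotientGroup.mk γ) g)
          (kap (locMap L' r) (QuotientGroup.mk γ * g) g')
          (quotMap h (cosetR (locMap L' r) (QuotientGroup.mk γ)) * x) : LocU L' r))
  · rw [at_supp2_of_ne h q hr, at_supp2_of_ne h q hr, smul_zero]

/-- A local cocycle of a layer as a cochain of the local group. -/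
def levFun {M : Layer} (c : Z2 (LocG M q) (LocU M q)) (τ τ' : LGal q) : LU q :=
  ((c : LocG M q → LocG M q → LocU M q) (QuotientGroup.mk τ) (QuotientGroup.mk τ') : LU q)

theorem isLev_levFun {M : Layer} (c : Z2 (LocG M q) (LocU M q)) : IsLev M q (levFun q c) := by
  refine ⟨fun τ τ' s hs t ht => ?_, fun τ τ' => Subtype.coe_prop _, fun g k j => ?_⟩
  · rw [levFun, levFun, QuotientGroup.mk_mul_of_mem τ hs, QuotientGroup.mk_mul_of_mem τ' ht]
  · show _ = g • _ + _
    rw [levFun, levFun, levFun, levFun, QuotientGroup.mk_mul, QuotientGroup.mk_mul]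
    exact congrArg Subtype.val (mem_Z2_iff.1 c.2 (QuotientGroup.mk g) (QuotientGroup.mk k)
      (QuotientGroup.mk j))

theorem cls_levFun {M : Layer} (c : Z2 (LocG M q) (LocU M q)) :
    (isLev_levFun q c).cls = H2.mk c := by
  refine congrArg H2.mk (Subtype.ext (funext fun a => funext fun b => ?_))
  induction a using QuotientGroup.induction_on with
  | _ g =>
    induction b using QuotientGroup.induction_on with
    | _ k =>
      show (isLev_levFun q c).fn (QuotientGroup.mk g) (QuotientGroup.mk k) = _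
      rw [IsLev.fn_mk]
      rfl

variable {p : ℕ} [hp : Fact p.Prime]

/-- The value of a two-cochain as an idele. -/
def valHom (g g' : Gam ⧸ L'.sub) (x : Gam ⧸ L.sub) :
    (Gam ⧸ L'.sub → Gam ⧸ L'.sub → QFun (quotMap h) (LayerJ L')) →+ Idele :=
  AddMonoidHom.mk' (fun s => (s g g' x : Idele)) fun _ _ => rfl

/-- The value of a one-cochain as an idele. -/
def valHom₁ (g : Gam ⧸ L'.sub) (x : Gam ⧸ L.sub) :
    (Gam ⧸ L'.sub → QFun (quotMap h) (LayerJ L')) →+ Idele :=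
  AddMonoidHom.mk' (fun t => (t g x : Idele)) fun _ _ => rfl

/-- A local class with weights representing a functional, `p` times which is a coboundary. -/
private lemma exists_local_data [Fintype (Gam ⧸ L.sub)] (hp2 : p ≠ 2)
    (hdiv : p ∣ Nat.card (baseMap h q).ker)
    (lam : (Gam ⧸ L.sub → ZMod p) →ₗ[ZMod p] ZMod p) :
    ∃ (cl : Z2 (LocG L' q) (LocU L' q)) (W : Gam ⧸ L.sub → ℕ)
      (B : LocG L' q → QFun (baseMap h q) (LocU L' q)),
      p • Nat.card (baseMap h q).range • H2.mk cl = 0 ∧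
      locInv hp2 L' q (Nat.card (baseMap h q).range • H2.mk cl) = 1 ∧
      (∀ d x, W (baseMap h q d * x) = W x) ∧
      (∀ c : Gam ⧸ L.sub → ZMod p, (∀ d x, c (baseMap h q d * x) = c x) →
        ∃ n : ℕ, ∑ x, (c x).val * W x = Nat.card (baseMap h q).range * n ∧
          (n : ZMod p) = lam c) ∧
      ∀ d d', p • weighted h q W cl d d' = d • B d' - B (d * d') + B d := by
  obtain ⟨cl, hcl1, hcl2, β, hβ⟩ := exists_localClass h q hp2 hdiv
  obtain ⟨W, hW, hWn⟩ := exists_weights h q (p := p) lam fun s a g _ => by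
    rw [show (fun x => ∑ y ∈ s, a y * g y x) = ∑ y ∈ s, a y • g y from
      funext fun x => by simp [Finset.sum_apply], map_sum]
    simp only [map_smul, smul_eq_mul]
  obtain ⟨B, hB⟩ := exists_weighted_cobound h q hW cl hβ
  exact ⟨cl, W, B, hcl1, hcl2, hW, hWn, hB⟩

omit hp in
/-- Local weighted cocycles at the primes of `S` add up to a cocycle of `S`-ideles. -/
private lemma exists_sum_supp {S : Finset Nat.Primes}
    (cl : ∀ q : S, Z2 (LocG L' q.1) (LocU L' q.1)) (W : S → Gam ⧸ L.sub → ℕ)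
    (hW : ∀ (q : S) d x, W q (baseMap h q.1 d * x) = W q x)
    (B : ∀ q : S, LocG L' q.1 → QFun (baseMap h q.1) (LocU L' q.1))
    (hB : ∀ (q : S) d d',
      p • weighted h q.1 (W q) (cl q) d d' = d • B q d' - B q (d * d') + B q d) :
    ∃ (s : Gam ⧸ L'.sub → Gam ⧸ L'.sub → QFun (quotMap h) (LayerJ L'))
      (t : Gam ⧸ L'.sub → QFun (quotMap h) (LayerJ L')),
      s ∈ Z2 (Gam ⧸ L'.sub) (QFun (quotMap h) (LayerJ L')) ∧
      (∀ g g', p • s g g' = g • t g' - t (g * g') + t g) ∧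
      (∀ g g' x r, r ∉ S → ∀ σ, (s g g' x : Idele).at r σ = 0) ∧
      (∀ g x r, r ∉ S → ∀ σ, (t g x : Idele).at r σ = 0) ∧
      ∀ (q : S) (d d' : LocG L' q.1) x,
        evalLoc L' q.1 (s (locMap L' q.1 d) (locMap L' q.1 d') x)
          = W q x • (cl q : LocG L' q.1 → LocG L' q.1 → LocU L' q.1) d d' := by
  classical
  let sq : S → Gam ⧸ L'.sub → Gam ⧸ L'.sub → QFun (quotMap h) (LayerJ L') := fun q =>
    supp2 h q.1 (weighted h q.1 (W q) (cl q))
  let tq : S → Gam ⧸ L'.sub → QFun (quotMap h) (LayerJ L') := fun q => supp1 h q.1 (B q)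
  have hsat : ∀ g g' x r σ,
      ((∑ q, sq q) g g' x : Idele).at r σ = ∑ q, (sq q g g' x : Idele).at r σ :=
    fun g g' x r σ => map_sum ((Idele.atHom r σ).comp (valHom h g g' x)) sq Finset.univ
  have htat : ∀ g x r σ, ((∑ q, tq q) g x : Idele).at r σ = ∑ q, (tq q g x : Idele).at r σ :=
    fun g x r σ => map_sum ((Idele.atHom r σ).comp (valHom₁ h g x)) tq Finset.univ
  refine ⟨∑ q, sq q, ∑ q, tq q,
    sum_mem fun q _ => supp2_mem_Z2 h q.1 (weighted_mem_Z2 h q.1 (hW q) (cl q)),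
    fun g g' => ?_, fun g g' x r hr σ => ?_, fun g x r hr σ => ?_, fun q d d' x => ?_⟩
  · simp only [Finset.sum_apply, Finset.smul_sum, ← Finset.sum_sub_distrib,
      ← Finset.sum_add_distrib]
    refine Finset.sum_congr rfl fun q _ => ?_
    rw [nsmul_supp2]
    exact supp1_d h q.1 (hB q) g g'
  · rw [hsat]
    exact Finset.sum_eq_zero fun q _ =>
      at_supp2_of_ne h q.1 (fun e => hr (by rw [e]; exact q.2)) _ g g' x σ
  · rw [htat]
    exact Finset.sum_eq_zero fun q _ =>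
      at_supp1_of_ne h q.1 (fun e => hr (by rw [e]; exact q.2)) _ g x σ
  · refine Eq.trans (Subtype.ext ?_) (evalLoc_supp2 h q.1 (weighted h q.1 (W q) (cl q)) d d' x)
    rw [coe_evalLoc, coe_evalLoc, hsat]
    exact Finset.sum_eq_single q (fun q' _ hq =>
      at_supp2_of_ne h q'.1 (fun e => hq (Subtype.ext e.symm)) _ _ _ _ _)
      fun hq => absurd (Finset.mem_univ q) hq

/-- The sum over `x` has the weighted local class as restriction. -/
private lemma locRes_sum_eq [Fintype (Gam ⧸ L.sub)]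
    {s : Gam ⧸ L'.sub → Gam ⧸ L'.sub → QFun (quotMap h) (LayerJ L')}
    (st : Z2 (Gam ⧸ L'.sub) (LayerJ L'))
    (hst : ∀ g g', (st : Gam ⧸ L'.sub → Gam ⧸ L'.sub → LayerJ L') g g' = ∑ x, s g g' x)
    (cl : Z2 (LocG L' q) (LocU L' q)) (k : ℕ)
    (hn : ∀ d d', ∑ x, (1 : ZMod p).val •
      evalLoc L' q (s (locMap L' q d) (locMap L' q d') x)
        = k • (cl : LocG L' q → LocG L' q → LocU L' q) d d') :
    locRes L' q (H2.mk st) = k • H2.mk cl := by
  rw [← map_nsmul, GlobalDuality.locRes, H2.map_mk]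
  refine congrArg H2.mk (Subtype.ext (funext fun d => funext fun d' => ?_))
  show evalLoc L' q ((st : Gam ⧸ L'.sub → Gam ⧸ L'.sub → LayerJ L') (locMap L' q d)
    (locMap L' q d')) = k • (cl : LocG L' q → LocG L' q → LocU L' q) d d'
  rw [← hn, hst]
  have : Fact (1 < p) := ⟨hp.out.one_lt⟩
  exact (map_sum _ _ _).trans (Finset.sum_congr rfl fun x _ => by rw [ZMod.val_one, one_smul])

/-- With invariants adding up to zero, the sum over `x` dies in the classes. -/
private lemma exists_class_cobound [Fintype (Gam ⧸ L.sub)] (hp2 : p ≠ 2) {S : Finset Nat.Primes}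
    {s : Gam ⧸ L'.sub → Gam ⧸ L'.sub → QFun (quotMap h) (LayerJ L')}
    (hs : s ∈ Z2 (Gam ⧸ L'.sub) (QFun (quotMap h) (LayerJ L')))
    {t : Gam ⧸ L'.sub → QFun (quotMap h) (LayerJ L')}
    (hpt : ∀ g g', p • s g g' = g • t g' - t (g * g') + t g)
    (hs0 : ∀ g g' x r, r ∉ S → ∀ σ, (s g g' x : Idele).at r σ = 0)
    {cl : ∀ q : S, Z2 (LocG L' q.1) (LocU L' q.1)}
    (hcl1 : ∀ q : S, p • Nat.card (baseMap h q.1).range • H2.mk (cl q) = 0)
    (hcl2 : ∀ q : S, locInv hp2 L' q.1 (Nat.card (baseMap h q.1).range • H2.mk (cl q)) = 1)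
    {lam : Nat.Primes → ZMod p} (hsum : ∑ q ∈ S, lam q = 0)
    (hone : ∀ q : S, ∃ n : ℕ, (n : ZMod p) = lam q.1 ∧ ∀ d d',
      ∑ x, (1 : ZMod p).val •
        evalLoc L' q.1 (s (locMap L' q.1 d) (locMap L' q.1 d') x)
          = (n * Nat.card (baseMap h q.1).range) •
              (cl q : LocG L' q.1 → LocG L' q.1 → LocU L' q.1) d d') :
    ∃ b : Gam ⧸ L'.sub → LayerC L', ∀ g g',
      fixedMap classMap classMap_smul L'.sub (∑ x, s g g' x) = g • b g' - b (g * g') + b g := by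
  have hcw : CompatPair (MonoidHom.id (Gam ⧸ L'.sub))
      ((AddMonoidHom.id (LayerJ L')).comp (QFun.wsum (π := quotMap h) fun _ => 1)) :=
    QFun.compat_wsum ⟨fun _ _ => rfl⟩ fun _ _ => rfl
  let st : Z2 (Gam ⧸ L'.sub) (LayerJ L') := ⟨_, hcw.mem_Z2 hs⟩
  have hst : ∀ g g', (st : Gam ⧸ L'.sub → Gam ⧸ L'.sub → LayerJ L') g g' = ∑ x, s g g' x :=
    fun g g' => Finset.sum_congr rfl fun x _ => one_smul ℕ _
  have hp0 : p • H2.mk st = 0 := by
    rw [show H2.mk st = H2.map _ _ hcw (H2.mk ⟨s, hs⟩) from (H2.map_mk hcw ⟨s, hs⟩).symm,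
      ← map_nsmul, ← map_nsmul, (H2.mk_eq_zero_iff _).2 ⟨t, hpt⟩, map_zero]
  have hstat : ∀ g g' r, r ∉ S → ∀ σ,
      ((st : Gam ⧸ L'.sub → Gam ⧸ L'.sub → LayerJ L') g g' : Idele).at r σ = 0 :=
    fun g g' r hr σ => by
      rw [hst]
      exact (map_sum ((Idele.atHom r σ).comp (LayerJ L').subtype) (fun x => s g g' x) _).trans
        (Finset.sum_eq_zero fun x _ => hs0 g g' x r hr σ)
  have hcls : classH2 L' (H2.mk st) = 0 := by
    have hpc : p • classH2 L' (H2.mk st) = 0 := by rw [← map_nsmul, hp0, map_zero]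
    refine eq_zero_of_coord hp2 hpc ?_
    rw [coord_eq_sum_locInv hp2 st S hpc
      (fun r hr g g' σ => by rw [hstat g g' r hr σ]; exact (unitsAt r).zero_mem)
      (fun r _ => by rw [← map_nsmul, hp0, map_zero]) fun r hr => by
        rw [GlobalDuality.locRes, H2.map_mk, ← map_zero H2.mk]
        exact congrArg H2.mk (Subtype.ext (funext fun d => funext fun d' =>
          Subtype.ext (hstat _ _ r hr 1)))]
    refine Eq.trans (Finset.sum_congr rfl fun r hr => ?_) hsum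
    obtain ⟨n, hn, hn'⟩ := hone ⟨r, hr⟩
    rw [show locRes L' r (H2.mk st) = n • Nat.card (baseMap h r).range • H2.mk (cl ⟨r, hr⟩) from
      (locRes_sum_eq h r st hst (cl ⟨r, hr⟩) _ hn').trans (mul_smul _ _ _),
      locInv_nsmul r hp2 (hcl1 ⟨r, hr⟩)]
    exact (congrArg (_ * ·) (hcl2 ⟨r, hr⟩)).trans ((mul_one _).trans hn)
  rw [classH2, push2_mk, H2.mk_eq_zero_iff] at hcls
  obtain ⟨b, hb⟩ := hcls
  exact ⟨b, fun g g' => by rw [← hst]; exact hb g g'⟩

omit hp in
/-- A function invariant under a local group is invariant under its inverses. -/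
private lemma apply_loc_inv_mul {c : Gam ⧸ L.sub → ZMod p}
    (hc : ∀ (τ : LGal q) (x : Gam ⧸ L.sub), c ((loc q τ : Gam ⧸ L.sub) * x) = c x)
    (τ : LGal q) (x : Gam ⧸ L.sub) : c ((loc q τ : Gam ⧸ L.sub)⁻¹ * x) = c x := by
  conv_rhs => rw [← mul_inv_cancel_left (loc q τ : Gam ⧸ L.sub) x, hc]

/-- The weighted sum of the global cochain is a local cocycle of a layer. -/
private lemma isLev_sum_muFun [Fintype (Gam ⧸ L.sub)] {L₄ : Layer}
    (hmu : ∀ g ∈ L₄.sub, ∀ a : ZMod p, g • torsionHom p a = torsionHom p a)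
    {f : Gam → Gam → Gam ⧸ L.sub → ZMod p}
    (hflev : ∀ γ γ', ∀ a ∈ L₄.sub, ∀ a' ∈ L₄.sub, ∀ x, f (γ * a) (γ' * a') x = f γ γ' x)
    (hfcoc : ∀ g h' j x, f (g * h') j x + f g h' x
      = (cycloChar p g : ZMod p) * f h' j ((g : Gam ⧸ L.sub)⁻¹ * x) + f g (h' * j) x)
    {c : Gam ⧸ L.sub → ZMod p}
    (hc : ∀ (τ : LGal q) (x : Gam ⧸ L.sub), c ((loc q τ : Gam ⧸ L.sub) * x) = c x) :
    IsLev L₄ q (muFun q fun ττ : LGal q × LGal q =>
      ∑ x, c x * f (loc q ττ.1) (loc q ττ.2) x) := by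
  refine isLev_muFun (fun a ha => hmu _ ha) ((mem_cocycles₂_iff _).2 fun (g : LGal q)
    (k : LGal q) (j : LGal q) => ?_) fun τ τ' a ha a' ha' => ?_
  · show (∑ x, c x * f (loc q (g * k)) (loc q j) x) + (∑ x, c x * f (loc q g) (loc q k) x)
      = (cycloChar p (loc q g) : ZMod p) * (∑ x, c x * f (loc q k) (loc q j) x)
        + ∑ x, c x * f (loc q g) (loc q (k * j)) x
    rw [← Finset.sum_add_distrib, map_mul, map_mul,
      ← Fintype.sum_equiv (Equiv.mulLeft (loc q g : Gam ⧸ L.sub)⁻¹)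
        (fun x => c x * f (loc q k) (loc q j) ((loc q g : Gam ⧸ L.sub)⁻¹ * x))
        (fun x => c x * f (loc q k) (loc q j) x)
        (fun x => by rw [Equiv.coe_mulLeft, apply_loc_inv_mul q hc]),
      Finset.mul_sum, ← Finset.sum_add_distrib]
    refine Finset.sum_congr rfl fun x _ => ?_
    rw [← mul_add, hfcoc, mul_add, mul_left_comm]
  · refine Finset.sum_congr rfl fun x _ => ?_
    rw [map_mul, map_mul, hflev _ _ _ ha _ ha']

/-- At `q` the weighted sum of the global cochain is a multiple of the local one plus a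
coboundary. -/
private lemma muFun_eq_levFun_add [Fintype (Gam ⧸ L.sub)]
    {s : Gam ⧸ L'.sub → Gam ⧸ L'.sub → QFun (quotMap h) (LayerJ L')}
    {f : Gam → Gam → Gam ⧸ L.sub → ZMod p} {Φ : Gam → Gam ⧸ L.sub → Idele} {M : ℕ}
    (hfe : ∀ γ γ' x, principal (torsionHom p (f γ γ' x)) = M • (s γ γ' x : Idele) - dQ Φ γ γ' x)
    {c : Gam ⧸ L.sub → ZMod p}
    (hc : ∀ (τ : LGal q) (x : Gam ⧸ L.sub), c ((loc q τ : Gam ⧸ L.sub) * x) = c x) {k : ℕ}
    {cq : Z2 (LocG L' q) (LocU L' q)}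
    (hn : ∀ d d', ∑ x, (c x).val • evalLoc L' q (s (locMap L' q d) (locMap L' q d') x)
      = k • (cq : LocG L' q → LocG L' q → LocU L' q) d d') (τ τ' : LGal q) :
    let Ψ : LGal q → LU q := fun τ => ∑ x, (c x).val • (Φ (loc q τ) x).at q 1
    muFun q (fun ττ : LGal q × LGal q => ∑ x, c x * f (loc q ττ.1) (loc q ττ.2) x) τ τ'
      = levFun q ((M * k) • cq) τ τ' + (τ • -Ψ τ' - -Ψ (τ * τ') + -Ψ τ) := by
  intro Ψ
  obtain ⟨X, hX⟩ : ∃ X : Gam ⧸ L.sub → LU q, ∀ x, X x = (s (locMap L' q (QuotientGroup.mk τ))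
      (locMap L' q (QuotientGroup.mk τ')) x : Idele).at q 1 := ⟨_, fun _ => rfl⟩
  have h1 : muFun q (fun ττ : LGal q × LGal q => ∑ x, c x * f (loc q ττ.1) (loc q ττ.2) x) τ τ'
      = ∑ x, (c x).val • embU q (torsionHom p (f (loc q τ) (loc q τ') x)) := by
    show embU q (torsionHom p _) = _
    rw [map_sum, map_sum]
    refine Finset.sum_congr rfl fun x _ => ?_
    rw [← map_nsmul, ← map_nsmul, nsmul_eq_mul, ZMod.natCast_zmod_val]
  have h2 : ∀ x, embU q (torsionHom p (f (loc q τ) (loc q τ') x))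
      = M • X x
        - (τ • (Φ (loc q τ') ((loc q τ : Gam ⧸ L.sub)⁻¹ * x)).at q 1
          - (Φ (loc q (τ * τ')) x).at q 1 + (Φ (loc q τ) x).at q 1) := fun x => by
    rw [hX, ← at_principal_embU, hfe, locMap_mk, locMap_mk]
    rw [Idele.at_sub, show ∀ (m : ℕ) (X : Idele), (m • X).at q 1 = m • X.at q 1 from
      fun m X => map_nsmul (Idele.atHom q 1) m X, dQ, Idele.at_add, Idele.at_sub, map_mul,
      Idele.at_smul, one_mul]
    conv_lhs => enter [2, 1, 1]; rw [← mul_one (loc q τ)]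
    rw [Idele.at_loc_mul, mul_one (loc q τ)]
  have h3 : ∑ x, (c x).val • τ • (Φ (loc q τ') ((loc q τ : Gam ⧸ L.sub)⁻¹ * x)).at q 1
      = τ • Ψ τ' := by
    rw [Finset.smul_sum]
    refine Fintype.sum_equiv (Equiv.mulLeft (loc q τ : Gam ⧸ L.sub)⁻¹) _ _ fun x => ?_
    rw [Equiv.coe_mulLeft, apply_loc_inv_mul q hc, smul_comm τ]
  have h4 : levFun q ((M * k) • cq) τ τ' = M • ∑ x, (c x).val • X x := by
    have h5 := congrArg (LocU L' q).subtype (hn (QuotientGroup.mk τ) (QuotientGroup.mk τ'))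
    simp only [map_sum, map_nsmul] at h5
    show ((M * k) • (cq : LocG L' q → LocG L' q → LocU L' q) _ _ : LocU L' q).1 = _
    rw [AddSubgroup.coe_nsmul, mul_smul]
    exact congrArg (M • ·) (h5.symm.trans
      (Finset.sum_congr rfl fun x _ => congrArg ((c x).val • ·) (hX x).symm))
  rw [h1, h4, Finset.sum_congr rfl fun x _ => congrArg ((c x).val • ·) (h2 x)]
  simp only [nsmul_sub, nsmul_add, Finset.sum_sub_distrib, Finset.sum_add_distrib, h3,
    smul_neg, smul_comm _ M]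
  rw [show ∑ x, M • (c x).val • X x = M • ∑ x, (c x).val • X x from
    (map_sum (nsmulAddMonoidHom M) (fun x => (c x).val • X x) Finset.univ).symm,
    show Ψ (τ * τ') = ∑ x, (c x).val • (Φ (loc q (τ * τ')) x).at q 1 from rfl,
    show Ψ τ = ∑ x, (c x).val • (Φ (loc q τ) x).at q 1 from rfl]
  abel

/-- The local invariant of the weighted sum of the global cochain. -/
private lemma cochainInv_sum_eq [Fintype (Gam ⧸ L.sub)] (hp2 : p ≠ 2)
    (hmu : ∀ g ∈ L.sub, cycloChar p g = 1) {L₄ : Layer} (hle : L₄.sub ≤ L'.sub)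
    {s : Gam ⧸ L'.sub → Gam ⧸ L'.sub → QFun (quotMap h) (LayerJ L')}
    {f : Gam → Gam → Gam ⧸ L.sub → ZMod p} {Φ : Gam → Gam ⧸ L.sub → Idele} {M : ℕ}
    (hflev : ∀ γ γ', ∀ a ∈ L₄.sub, ∀ a' ∈ L₄.sub, ∀ x, f (γ * a) (γ' * a') x = f γ γ' x)
    (hfcoc : ∀ g h' j x, f (g * h') j x + f g h' x
      = (cycloChar p g : ZMod p) * f h' j ((g : Gam ⧸ L.sub)⁻¹ * x) + f g (h' * j) x)
    (hΦinv : ∀ γ, ∀ a ∈ L₄.sub, ∀ x, Φ (γ * a) x = Φ γ x)
    (hΦfix : ∀ γ x, Φ γ x ∈ fixedPts L₄.sub Idele)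
    (hfe : ∀ γ γ' x, principal (torsionHom p (f γ γ' x)) = M • (s γ γ' x : Idele) - dQ Φ γ γ' x)
    {c : Gam ⧸ L.sub → ZMod p}
    (hc : ∀ (τ : LGal q) (x : Gam ⧸ L.sub), c ((loc q τ : Gam ⧸ L.sub) * x) = c x) {n : ℕ}
    {cq : Z2 (LocG L' q) (LocU L' q)}
    (hn : ∀ d d', ∑ x, (c x).val • evalLoc L' q (s (locMap L' q d) (locMap L' q d') x)
      = (n * Nat.card (baseMap h q).range) • (cq : LocG L' q → LocG L' q → LocU L' q) d d')
    (hq1 : p • Nat.card (baseMap h q).range • H2.mk cq = 0)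
    (hq2 : locInv hp2 L' q (Nat.card (baseMap h q).range • H2.mk cq) = 1) :
    cochainInv hp2 q (muFun q fun ττ : LGal q × LGal q =>
      ∑ x, c x * f (loc q ττ.1) (loc q ττ.2) x) = (M : ZMod p) * (n : ZMod p) := by
  have hlevF := isLev_sum_muFun q (fun g hg a => by
    rw [smul_torsionHom, hmu g (h (hle hg)), Units.val_one, one_mul]) hflev hfcoc hc
  set N := Nat.card (baseMap h q).range
  set cM : Z2 (LocG L' q) (LocU L' q) := (M * (n * N)) • cq
  have hl : locSub L₄ q ≤ locSub L' q := fun _ ha => hle ha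
  let Ψ : LGal q → LU q := fun τ => ∑ x, (c x).val • (Φ (loc q τ) x).at q 1
  have hΨlev : ∀ τ, ∀ a ∈ locSub L₄ q, -Ψ (τ * a) = -Ψ τ := fun τ a ha =>
    congrArg Neg.neg (Finset.sum_congr rfl fun x _ => by rw [map_mul, hΦinv _ _ ha])
  have hΨval : ∀ τ, -Ψ τ ∈ LocU L₄ q := fun τ => neg_mem (sum_mem fun x _ =>
    nsmul_mem (show (Φ (loc q τ) x).at q 1 ∈ LocU L₄ q from fun _ ha =>
      Idele.smul_at_of_mem (hΦfix _ x) q 1 ha) _)
  have hcM : H2.mk cM = (M * n) • N • H2.mk cq := by rw [smul_smul, mul_assoc, ← map_nsmul]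
  have hpk : p • H2.mk cM = 0 := by rw [hcM, smul_comm, hq1, smul_zero]
  rw [cochainInv_eq hp2 hlevF (nsmul_muFun q _),
    hlevF.cls_congr ((isLev_levFun q cM).mono hl) (fun τ => -Ψ τ) hΨlev hΨval
      (muFun_eq_levFun_add h q hfe hc hn),
    ← (isLev_levFun q cM).cls_inf hl, cls_levFun, locInv_inf hp2 hle hl hpk, hcM,
    locInv_nsmul q hp2 hq1, hq2, Nat.cast_mul, mul_one]

/-- A cocycle with values in roots of unity with prescribed invariants. -/
theorem exists_global (hp2 : p ≠ 2) {L : Layer} {S : Finset Nat.Primes} (hL : L.IsS S)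
    (hpS : pPrime p ∈ S) (hmu : ∀ g ∈ L.sub, cycloChar p g = 1) [Fintype (Gam ⧸ L.sub)]
    (lam : Nat.Primes → ((Gam ⧸ L.sub → ZMod p) →ₗ[ZMod p] ZMod p))
    (hsum : ∑ q ∈ S, lam q (fun _ => 1) = 0) :
    ∃ (M : ℕ) (L₄ : Layer) (f : Gam → Gam → Gam ⧸ L.sub → ZMod p), ¬p ∣ M ∧ L₄.IsS S ∧
      L₄.sub ≤ L.sub ∧
      (∀ γ γ', ∀ a ∈ L₄.sub, ∀ a' ∈ L₄.sub, ∀ x, f (γ * a) (γ' * a') x = f γ γ' x) ∧
      (∀ g h' j x, f (g * h') j x + f g h' x
        = (cycloChar p g : ZMod p) * f h' j ((g : Gam ⧸ L.sub)⁻¹ * x) + f g (h' * j) x) ∧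
      ∀ q ∈ S, ∀ c : Gam ⧸ L.sub → ZMod p,
        (∀ (τ : LGal q) (x : Gam ⧸ L.sub), c ((loc q τ : Gam ⧸ L.sub) * x) = c x) →
        cochainInv hp2 q (muFun q fun ττ : LGal q × LGal q =>
          ∑ x, c x * f (loc q ττ.1) (loc q ττ.2) x) = (M : ZMod p) * lam q c := by
  classical
  obtain ⟨L', hL', h, hdiv⟩ := exists_grow (p := p) hL hpS hmu
  choose cl W B hcl1 hcl2 hW hWn hB using
    fun q : S => exists_local_data h q.1 hp2 (hdiv q.1 q.2) (lam q.1)
  obtain ⟨s, t, hs, hpt, hs0, ht0, hsev⟩ := exists_sum_supp (p := p) h cl W hW B hB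
  -- the weighted sums at one prime
  have hkey : ∀ (q : S) (c : Gam ⧸ L.sub → ZMod p), (∀ d x, c (baseMap h q.1 d * x) = c x) →
      ∃ n : ℕ, (n : ZMod p) = lam q.1 c ∧ ∀ d d',
        ∑ x, (c x).val • evalLoc L' q.1 (s (locMap L' q.1 d) (locMap L' q.1 d') x)
          = (n * Nat.card (baseMap h q.1).range) •
              (cl q : LocG L' q.1 → LocG L' q.1 → LocU L' q.1) d d' := fun q c hc => by
    obtain ⟨n, hn, hnl⟩ := hWn q c hc
    refine ⟨n, hnl, fun d d' => ?_⟩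
    simp only [hsev, smul_smul, ← Finset.sum_smul]
    rw [hn, mul_comm]
  -- the sum dies in the classes, so descends to roots of unity
  obtain ⟨b, hb⟩ := exists_class_cobound h hp2 hs hpt hs0 hcl1 hcl2
    (lam := fun q => lam q fun _ => 1) hsum fun q => hkey q (fun _ => 1) fun _ _ => rfl
  obtain ⟨M, L₄, f, Φ, hM, hL₄, hle, hflev, hfcoc, hΦinv, hΦfix, hfe⟩ :=
    exists_mu_cocycle (p := p) hp2 hpS h hL' hs hpt
      (fun g g' x => ⟨⟨L', hL', (s g g' x).2⟩, fun r hr σ => by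
        rw [hs0 g g' x r hr σ]; exact (unitsAt r).zero_mem⟩)
      (fun g x => ⟨⟨L', hL', (t g x).2⟩, fun r hr σ => by
        rw [ht0 g x r hr σ]; exact (unitsAt r).zero_mem⟩)
      (b := b) hb
  refine ⟨M, L₄, f, hM, hL₄, hle.trans h, hflev, hfcoc, fun q hq c hc => ?_⟩
  obtain ⟨n, hnl, hn⟩ := hkey ⟨q, hq⟩ c fun d x => by
    induction d using QuotientGroup.induction_on with
    | _ τ => rw [baseMap_mk]; exact hc τ x
  rw [cochainInv_sum_eq h q hp2 hmu hle hflev hfcoc hΦinv hΦfix hfe hc hn (hcl1 ⟨q, hq⟩)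
    (hcl2 ⟨q, hq⟩), hnl]

end FLTAgent.GWEuler.LocTwo
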