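import Fermat.Agent.GWEuler.LocTwo.QCochain
import Fermat.Agent.GlobalDuality.LocalCochain

/-!
# Idele cochains with prescribed classes at one prime

Over a layer with local degrees divisible by `p` a weighted multiple of a local class
(`exists_localClass`, `weighted`) is a two-cocycle of ideles supported above one prime with values
in functions on the Galois group of the base layer, killed by `p` up to coboundaries.
-/

set_option autoImplicit false

noncomputable section

namespace FLTAgent.GWEuler.LocTwo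

open FLTAgent.GalCoh FLTAgent.LocalDuality FLTAgent.GlobalDuality FLTAgent.IdeleClassCohomology

/-- An idele of a layer supported above one prime, from its components. -/
def suppIdele (L : Layer) (q : Nat.Primes) (Φ : Gam ⧸ L.sub → LocU L q)
    (hΦ : ∀ d σ, Φ (locMap L q d * σ) = d • Φ σ) : LayerJ L :=
  ⟨single q ⟨fun σ => ((Φ (QuotientGroup.mk σ) : LocU L q) : LU q),
      ⟨fun τ σ => by
        show ((Φ (QuotientGroup.mk (loc q τ * σ)) : LocU L q) : LU q) = _
        rw [QuotientGroup.mk_mul, ← locMap_mk, hΦ]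
        rfl,
      L, fun σ s hs => by
        show ((Φ (QuotientGroup.mk (σ * s)) : LocU L q) : LU q) = _
        rw [QuotientGroup.mk_mul_of_mem σ hs]⟩⟩,
    Idele.mem_fixedPts_iff.2 fun r σ s hs => by
      rcases eq_or_ne r q with rfl | hr
      · rw [at_single_self, at_single_self]
        show ((Φ (QuotientGroup.mk (σ * s)) : LocU L r) : LU r) = _
        rw [QuotientGroup.mk_mul_of_mem σ hs]
      · rw [at_single_of_ne hr, at_single_of_ne hr]⟩

theorem at_suppIdele_self {L : Layer} {q : Nat.Primes} (Φ : Gam ⧸ L.sub → LocU L q)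
    (hΦ : ∀ d σ, Φ (locMap L q d * σ) = d • Φ σ) (γ : Gam) :
    (suppIdele L q Φ hΦ : Idele).at q γ = ((Φ (QuotientGroup.mk γ) : LocU L q) : LU q) :=
  at_single_self q _ γ

theorem at_suppIdele_of_ne {L : Layer} {q r : Nat.Primes} (hr : r ≠ q)
    (Φ : Gam ⧸ L.sub → LocU L q) (hΦ : ∀ d σ, Φ (locMap L q d * σ) = d • Φ σ) (γ : Gam) :
    (suppIdele L q Φ hΦ : Idele).at r γ = 0 :=
  at_single_of_ne hr _ γ

variable {L L' : Layer} (h : L'.sub ≤ L.sub) (q : Nat.Primes)

/-- The decomposition group acting on the Galois group of the base layer. -/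
abbrev baseMap : LocG L' q →* Gam ⧸ L.sub := (quotMap h).comp (locMap L' q)

/-- Two-cochains of ideles supported above `q`. -/
def supp2 (F : LocG L' q → LocG L' q → QFun (baseMap h q) (LocU L' q)) (g g' : Gam ⧸ L'.sub) :
    QFun (quotMap h) (LayerJ L') := fun x =>
  suppIdele L' q (ind2 (j := locMap L' q) (quotMap h) F g g' x)
    fun d σ => ind2_equiv (quotMap h) (locMap_injective L' q) F g g' x d σ

/-- One-cochains of ideles supported above `q`. -/
def supp1 (B : LocG L' q → QFun (baseMap h q) (LocU L' q)) (g : Gam ⧸ L'.sub) :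
    QFun (quotMap h) (LayerJ L') := fun x =>
  suppIdele L' q (ind1 (j := locMap L' q) (quotMap h) B g x)
    fun d σ => ind1_equiv (quotMap h) (locMap_injective L' q) B g x d σ

theorem at_supp2_of_ne {r : Nat.Primes} (hr : r ≠ q)
    (F : LocG L' q → LocG L' q → QFun (baseMap h q) (LocU L' q)) (g g' : Gam ⧸ L'.sub)
    (x : Gam ⧸ L.sub) (γ : Gam) : (supp2 h q F g g' x : Idele).at r γ = 0 :=
  at_suppIdele_of_ne hr _ _ γ

theorem at_supp1_of_ne {r : Nat.Primes} (hr : r ≠ q)
    (B : LocG L' q → QFun (baseMap h q) (LocU L' q)) (g : Gam ⧸ L'.sub)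
    (x : Gam ⧸ L.sub) (γ : Gam) : (supp1 h q B g x : Idele).at r γ = 0 :=
  at_suppIdele_of_ne hr _ _ γ

theorem supp2_mem_Z2 {F : LocG L' q → LocG L' q → QFun (baseMap h q) (LocU L' q)}
    (hF : F ∈ Z2 (LocG L' q) (QFun (baseMap h q) (LocU L' q))) :
    supp2 h q F ∈ Z2 (Gam ⧸ L'.sub) (QFun (quotMap h) (LayerJ L')) := by
  refine mem_Z2_iff.2 fun g g' k => QFun.ext fun x => Subtype.ext (Idele.ext fun r γ => ?_)
  induction g using QuotientGroup.induction_on with
  | _ η =>
    show (supp2 h q F (QuotientGroup.mk η * g') k x : Idele).at r γ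
        + (supp2 h q F (QuotientGroup.mk η) g' x : Idele).at r γ
      = ((QuotientGroup.mk η : Gam ⧸ L'.sub)
          • supp2 h q F g' k ((quotMap h (QuotientGroup.mk η))⁻¹ * x) : LayerJ L').1.at r γ
        + (supp2 h q F (QuotientGroup.mk η) (g' * k) x : Idele).at r γ
    rw [coe_mk_smul, Idele.at_smul]
    rcases eq_or_ne r q with rfl | hr
    · simp only [supp2, at_suppIdele_self, QuotientGroup.mk_mul]
      exact congrArg Subtype.val (ind2_cocycle (quotMap h) (locMap_injective L' r) hF
        (QuotientGroup.mk η) g' k x (QuotientGroup.mk γ))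
    · simp only [at_supp2_of_ne h q hr, add_zero]

theorem supp1_d {B : LocG L' q → QFun (baseMap h q) (LocU L' q)}
    {F : LocG L' q → LocG L' q → QFun (baseMap h q) (LocU L' q)}
    (hB : ∀ d d', F d d' = d • B d' - B (d * d') + B d) (g g' : Gam ⧸ L'.sub) :
    supp2 h q F g g' = g • supp1 h q B g' - supp1 h q B (g * g') + supp1 h q B g := by
  refine QFun.ext fun x => Subtype.ext (Idele.ext fun r γ => ?_)
  induction g using QuotientGroup.induction_on with
  | _ η =>
    show (supp2 h q F (QuotientGroup.mk η) g' x : Idele).at r γ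
      = ((QuotientGroup.mk η : Gam ⧸ L'.sub)
          • supp1 h q B g' ((quotMap h (QuotientGroup.mk η))⁻¹ * x) : LayerJ L').1.at r γ
        - (supp1 h q B (QuotientGroup.mk η * g') x : Idele).at r γ
        + (supp1 h q B (QuotientGroup.mk η) x : Idele).at r γ
    rw [coe_mk_smul, Idele.at_smul]
    rcases eq_or_ne r q with rfl | hr
    · simp only [supp2, supp1, at_suppIdele_self, QuotientGroup.mk_mul]
      exact congrArg Subtype.val (ind1_d (quotMap h) (locMap_injective L' r) hB
        (QuotientGroup.mk η) g' x (QuotientGroup.mk γ))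
    · simp only [at_supp1_of_ne h q hr, at_supp2_of_ne h q hr, sub_zero, add_zero]

theorem evalLoc_supp2 (F : LocG L' q → LocG L' q → QFun (baseMap h q) (LocU L' q))
    (d d' : LocG L' q) (x : Gam ⧸ L.sub) :
    evalLoc L' q (supp2 h q F (locMap L' q d) (locMap L' q d') x) = F d d' x := by
  refine Subtype.ext ?_
  rw [coe_evalLoc, supp2, at_suppIdele_self]
  exact congrArg Subtype.val (ind2_base (quotMap h) (locMap_injective L' q) F d d' x)

/-! ### The local class and its weights -/

variable {p : ℕ} [hp : Fact p.Prime]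

theorem locInv_nsmul (hp2 : p ≠ 2) {M : Layer} {x : H2 (LocG M q) (LocU M q)} (hx : p • x = 0)
    (k : ℕ) : locInv hp2 M q (k • x) = (k : ZMod p) * locInv hp2 M q x := by
  induction k with
  | zero => rw [zero_nsmul, locInv_zero, Nat.cast_zero, zero_mul]
  | succ n ih =>
    rw [succ_nsmul, locInv_add hp2 (by rw [smul_comm, hx, smul_zero]) hx, ih, Nat.cast_succ,
      add_mul, one_mul]

/-- A class whose restriction to the kernel is killed by `p` and whose multiple by the index has
invariant one. -/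
theorem exists_localClass (hp2 : p ≠ 2) (hdiv : p ∣ Nat.card (baseMap h q).ker) :
    ∃ c : Z2 (LocG L' q) (LocU L' q),
      p • Nat.card (baseMap h q).range • H2.mk c = 0 ∧
      locInv hp2 L' q (Nat.card (baseMap h q).range • H2.mk c) = 1 ∧
      ∃ β : LocG L' q → LocU L' q, ∀ d d', baseMap h q d = 1 → baseMap h q d' = 1 →
        p • (c : LocG L' q → LocG L' q → LocU L' q) d d' = d • β d' - β (d * d') + β d := by
  classical
  have := Fintype.ofFinite (LocG L' q)
  set K := (baseMap h q).ker
  set N := Nat.card (baseMap h q).range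
  obtain ⟨m, hm⟩ := hdiv
  obtain ⟨u₀, hu₀⟩ := (isClassModule_LocU (p := p) hp2 L' q).exists_gen
  have hcard : Nat.card (LocG L' q) = N * (p * m) := by
    rw [← hm, ← Subgroup.index_mul_card K, Subgroup.index_ker]
  have hp1 : p • N • m • u₀ = 0 := by
    rw [← mul_smul, ← mul_smul,
      show p * N * m = Nat.card (LocG L' q) by rw [hcard]; ring, card_nsmul_H2]
  have hne : N • m • u₀ ≠ 0 := fun h0 => by
    rw [← mul_smul] at h0
    have h2 : p * pPart p (LocG L' q) ∣ Nat.card (LocG L' q) := by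
      rw [hcard, show N * (p * m) = p * (N * m) by ring]
      exact Nat.mul_dvd_mul_left p (hu₀ _ h0)
    exact Nat.pow_succ_factorization_not_dvd Nat.card_pos.ne' hp.out (by rwa [pow_succ'])
  have ht : locInv hp2 L' q (N • m • u₀) ≠ 0 := fun h0 => hne (eq_zero_of_locInv hp2 hp1 h0)
  set k := ((locInv hp2 L' q (N • m • u₀))⁻¹).val
  obtain ⟨c, hc⟩ := H2.mk_surjective (k • m • u₀)
  refine ⟨c, ?_, ?_, ?_⟩
  · rw [hc, smul_comm N k, smul_comm p k, hp1, smul_zero]
  · rw [hc, smul_comm N k, locInv_nsmul q hp2 hp1, ZMod.natCast_zmod_val, inv_mul_cancel₀ ht]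
  · have hres : p • H2.map K.subtype (AddMonoidHom.id _) (CompatPair.subtype K) (H2.mk c) = 0 := by
      rw [hc, map_nsmul, map_nsmul, smul_comm p k, ← mul_smul p m, ← hm]
      rw [card_nsmul_H2, smul_zero]
    rw [H2.map_mk, ← map_nsmul, H2.mk_eq_zero_iff] at hres
    obtain ⟨b, hb⟩ := hres
    refine ⟨fun d => if hd : d ∈ K then b ⟨d, hd⟩ else 0, fun d d' hd hd' => ?_⟩
    have h1 : d ∈ K := hd
    have h2 : d' ∈ K := hd'
    simp only
    rw [dif_pos h1, dif_pos h2, dif_pos (mul_mem h1 h2)]
    exact hb ⟨d, h1⟩ ⟨d', h2⟩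

/-- The weighted class. -/
def weighted (W : Gam ⧸ L.sub → ℕ) (c : LocG L' q → LocG L' q → LocU L' q) (d d' : LocG L' q) :
    QFun (baseMap h q) (LocU L' q) := fun x => W x • c d d'

theorem weighted_mem_Z2 {W : Gam ⧸ L.sub → ℕ} (hW : ∀ d x, W (baseMap h q d * x) = W x)
    (c : Z2 (LocG L' q) (LocU L' q)) :
    weighted h q W c ∈ Z2 (LocG L' q) (QFun (baseMap h q) (LocU L' q)) := by
  refine mem_Z2_iff.2 fun g g' k => QFun.ext fun x => ?_
  show W x • (c : LocG L' q → LocG L' q → LocU L' q) (g * g') k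
      + W x • (c : LocG L' q → LocG L' q → LocU L' q) g g'
    = g • (W ((baseMap h q g)⁻¹ * x) • (c : LocG L' q → LocG L' q → LocU L' q) g' k)
      + W x • (c : LocG L' q → LocG L' q → LocU L' q) g (g' * k)
  rw [← map_inv, hW, smul_comm g (W x), ← smul_add, ← smul_add, mem_Z2_iff.1 c.2 g g' k]

omit hp in
/-- `p` times a weighted class is a coboundary. -/
theorem exists_weighted_cobound {W : Gam ⧸ L.sub → ℕ} (hW : ∀ d x, W (baseMap h q d * x) = W x)
    (c : Z2 (LocG L' q) (LocU L' q)) {β : LocG L' q → LocU L' q}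
    (hβ : ∀ d d', baseMap h q d = 1 → baseMap h q d' = 1 →
      p • (c : LocG L' q → LocG L' q → LocU L' q) d d' = d • β d' - β (d * d') + β d) :
    ∃ B : LocG L' q → QFun (baseMap h q) (LocU L' q),
      ∀ d d', p • weighted h q W c d d' = d • B d' - B (d * d') + B d := by
  classical
  set π₀ := (baseMap h q).rangeRestrict
  have hker : ∀ d, π₀ d = 1 → baseMap h q d = 1 := fun d hd => congrArg Subtype.val hd
  let f : LocG L' q → LocG L' q → QFun π₀ (LocU L' q) := fun d d' _ =>
    p • (c : LocG L' q → LocG L' q → LocU L' q) d d'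
  obtain ⟨B₀, hB₀⟩ := exists_qd1 (π := π₀) (baseMap h q).rangeRestrict_surjective (f := f)
    (mem_Z2_iff.2 fun g g' k => QFun.ext fun y => by
      show p • (c : LocG L' q → LocG L' q → LocU L' q) (g * g') k
          + p • (c : LocG L' q → LocG L' q → LocU L' q) g g'
        = g • (p • (c : LocG L' q → LocG L' q → LocU L' q) g' k)
          + p • (c : LocG L' q → LocG L' q → LocU L' q) g (g' * k)
      rw [smul_comm g p, ← smul_add, ← smul_add, mem_Z2_iff.1 c.2 g g' k])
    fun d d' hd hd' => hβ d d' (hker d hd) (hker d' hd')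
  set i := (baseMap h q).range.subtype
  let B : LocG L' q → QFun (baseMap h q) (LocU L' q) := fun d x => W x • B₀ d (cosetD i x)
  refine ⟨B, fun d d' => QFun.ext fun x => ?_⟩
  have hx : cosetD i ((baseMap h q d)⁻¹ * x) = (π₀ d)⁻¹ * cosetD i x := by
    rw [show (baseMap h q d)⁻¹ = i ((π₀ d)⁻¹) from rfl, cosetD_mul Subtype.val_injective]
  have h1 := congrFun (hB₀ d d') (cosetD i x)
  change p • (c : LocG L' q → LocG L' q → LocU L' q) d d'
    = d • B₀ d' ((π₀ d)⁻¹ * cosetD i x) - B₀ (d * d') (cosetD i x) + B₀ d (cosetD i x) at h1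
  show p • (W x • (c : LocG L' q → LocG L' q → LocU L' q) d d')
    = d • (W ((baseMap h q d)⁻¹ * x) • B₀ d' (cosetD i ((baseMap h q d)⁻¹ * x)))
      - W x • B₀ (d * d') (cosetD i x) + W x • B₀ d (cosetD i x)
  rw [hx, ← map_inv, hW, smul_comm p (W x), h1, smul_comm d (W x), nsmul_add, nsmul_sub]

open Classical in
/-- Weights realising a functional on functions constant on the orbits. -/
theorem exists_weights [Fintype (Gam ⧸ L.sub)]
    (lam : (Gam ⧸ L.sub → ZMod p) → ZMod p)
    (hadd : ∀ (s : Finset (Gam ⧸ L.sub)) (a : Gam ⧸ L.sub → ZMod p)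
      (f : Gam ⧸ L.sub → Gam ⧸ L.sub → ZMod p), (∀ y d x, f y (baseMap h q d * x) = f y x) →
      lam (fun x => ∑ y ∈ s, a y * f y x) = ∑ y ∈ s, a y * lam (f y)) :
    ∃ W : Gam ⧸ L.sub → ℕ, (∀ d x, W (baseMap h q d * x) = W x) ∧
      ∀ c : Gam ⧸ L.sub → ZMod p, (∀ d x, c (baseMap h q d * x) = c x) →
        ∃ n : ℕ, ∑ x, (c x).val * W x = Nat.card (baseMap h q).range * n ∧
          (n : ZMod p) = lam c := by
  set H := (baseMap h q).range
  have : Fintype H := Fintype.ofFinite _
  set i := H.subtype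
  set r := cosetR i
  have hr : ∀ d x, r (baseMap h q d * x) = r x := fun d x =>
    cosetR_mul i (⟨_, d, rfl⟩ : H) x
  let ind : Gam ⧸ L.sub → Gam ⧸ L.sub → ZMod p := fun y x => if r x = y then 1 else 0
  let W : Gam ⧸ L.sub → ℕ := fun x => (lam (ind (r x))).val
  refine ⟨W, fun d x => by simp only [W, hr], fun c hc => ?_⟩
  set T := Finset.univ.image r
  have hcr : ∀ x, c x = c (r x) := fun x => by
    obtain ⟨⟨_, d, rfl⟩, hd⟩ : ∃ e : H, x = i e * r x := ⟨_, cosetD_spec i x⟩
    conv_lhs => rw [hd]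
    exact hc d _
  have hrr : ∀ y ∈ T, r y = y := fun y hy => by
    obtain ⟨x, -, rfl⟩ := Finset.mem_image.1 hy
    conv_rhs => rw [show r x = r (i (cosetD i x) * r x) by rw [← cosetD_spec]]
    exact (cosetR_mul i _ _).symm
  refine ⟨∑ y ∈ T, (c y).val * (lam (ind y)).val, ?_, ?_⟩
  · rw [Finset.mul_sum, ← Finset.sum_fiberwise_of_maps_to (g := r) (t := T)
      (fun x _ => Finset.mem_image_of_mem r (Finset.mem_univ x))]
    refine Finset.sum_congr rfl fun y hy => ?_
    have hfib : ∀ x ∈ Finset.univ.filter (fun x => r x = y),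
        (c x).val * W x = (c y).val * (lam (ind y)).val := fun x hx => by
      obtain rfl := (Finset.mem_filter.1 hx).2
      simp only [W, ← hcr x]
    rw [Finset.sum_congr rfl hfib, Finset.sum_const, smul_eq_mul]
    congr 1
    rw [Nat.card_eq_fintype_card]
    refine (Finset.card_bij (fun (e : H) _ => i e * y) (fun e _ => ?_) (fun a _ b _ hab => ?_)
      fun x hx => ?_).symm
    · rw [Finset.mem_filter]
      exact ⟨Finset.mem_univ _, (cosetR_mul i e y).trans (hrr y hy)⟩
    · exact Subtype.val_injective (mul_right_cancel hab)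
    · rw [Finset.mem_filter] at hx
      exact ⟨cosetD i x, Finset.mem_univ _, by rw [← hx.2]; exact (cosetD_spec i x).symm⟩
  · rw [Nat.cast_sum]
    simp only [Nat.cast_mul, ZMod.natCast_zmod_val]
    refine (hadd T c ind (fun y d x => by simp only [ind, hr])).symm.trans ?_
    refine congrArg lam (funext fun x => ?_)
    simp only [ind, mul_ite, mul_one, mul_zero, Finset.sum_ite_eq]
    rw [if_pos (Finset.mem_image_of_mem r (Finset.mem_univ x)), ← hcr]

end FLTAgent.GWEuler.LocTwo
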