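import Fermat.Agent.GWEuler.LocTwo.QCochain
import Fermat.Agent.GlobalDuality.LocalGlobal

/-!
# Classes with values in functions on a quotient of a class module

`exists_cobound_of_sum`: under the hypotheses of Tate–Nakayama at `p` such a two-class with
vanishing sum over the quotient is killed by a number prime to `p`.
-/

set_option autoImplicit false

noncomputable section

namespace FLTAgent.GWEuler.LocTwo

open FLTAgent.GalCoh

variable {G G' : Type} [Group G] [Group G'] {Q : Type} [Group Q] {π : G →* Q} {π' : G' →* Q}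
  {A B : Type} [AddCommGroup A] [AddCommGroup B]

/-- A map of coefficients, pointwise. -/
def QFun.push (φ : A →+ B) : QFun π A →+ QFun π' B where
  toFun f := fun x => φ (f x)
  map_zero' := funext fun _ => map_zero φ
  map_add' _ _ := funext fun _ => map_add φ _ _

/-- A constant function. -/
def QFun.const : A →+ QFun π A where
  toFun a := fun _ => a
  map_zero' := rfl
  map_add' _ _ := rfl

/-- A weighted sum of the values. -/
def QFun.wsum [Fintype Q] (w : Q → ℕ) : QFun π A →+ A where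
  toFun f := ∑ x, w x • f x
  map_zero' := Finset.sum_eq_zero fun x _ => smul_zero (w x)
  map_add' f f' := by
    rw [← Finset.sum_add_distrib]
    exact Finset.sum_congr rfl fun x _ => smul_add (w x) _ _

variable [DistribMulAction G A] [DistribMulAction G' B]

theorem QFun.compat_push {ψ : G' →* G} (hψ : π.comp ψ = π') {φ : A →+ B}
    (hc : CompatPair ψ φ) : CompatPair ψ (QFun.push φ : QFun π A →+ QFun π' B) :=
  ⟨fun g f => funext fun x => by
    show φ (ψ g • f ((π (ψ g))⁻¹ * x)) = g • φ (f ((π' g)⁻¹ * x))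
    rw [hc.compat, ← hψ]
    rfl⟩

theorem QFun.compat_const : CompatPair (MonoidHom.id G) (QFun.const : A →+ QFun π A) :=
  ⟨fun _ _ => rfl⟩

theorem QFun.compat_wsum [Fintype Q] {ψ : G' →* G} {φ : A →+ B} (hc : CompatPair ψ φ) {w : Q → ℕ}
    (hw : ∀ (g : G') (x : Q), w (π (ψ g) * x) = w x) :
    CompatPair ψ (φ.comp (QFun.wsum w) : QFun π A →+ B) :=
  ⟨fun g f => by
    show φ (∑ x, w x • ψ g • f ((π (ψ g))⁻¹ * x)) = g • φ (∑ x, w x • f x)
    rw [← hc.compat, Finset.smul_sum]
    refine congrArg φ (Fintype.sum_equiv (Equiv.mulLeft (π (ψ g))⁻¹) _ _ fun x => ?_)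
    rw [Equiv.coe_mulLeft, smul_comm (ψ g),
      show w ((π (ψ g))⁻¹ * x) = w x from by rw [← map_inv, ← map_inv, hw]]⟩

end FLTAgent.GWEuler.LocTwo

namespace FLTAgent.GWEuler.LocTwo

open FLTAgent.GalCoh FLTAgent.GlobalDuality

variable {G : Type} [Group G] [Finite G] {Q : Type} [Group Q] {π : G →* Q} {C : Type}
  [AddCommGroup C] [DistribMulAction G C] {p : ℕ} [hp : Fact p.Prime]

omit [Finite G] in
/-- A class with values in functions on the quotient, restricted to a subgroup of the kernel and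
evaluated at the identity. -/
theorem compat_evalOne {K : Subgroup G} (hK : K ≤ π.ker) :
    CompatPair K.subtype (QFun.evalOne (π := π) (A := C)) :=
  ⟨fun h f => by
    show (h : G) • f ((π h)⁻¹ * 1) = (h : G) • f 1
    rw [MonoidHom.mem_ker.1 (hK h.2), inv_one, one_mul]⟩

omit hp in
/-- A class which vanishes on a Sylow subgroup of the kernel is killed by a number prime to
`p`. -/
theorem exists_cobound_of_sylow (hπ : Function.Surjective π) {f : G → G → QFun π C}
    (hf : f ∈ Z2 G (QFun π C)) (P : Sylow p π.ker)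
    (h0 : H2.map ((P : Subgroup π.ker).map π.ker.subtype).subtype QFun.evalOne
      (compat_evalOne (Subgroup.map_subtype_le _)) (H2.mk ⟨f, hf⟩) = 0) :
    ∃ B : G → QFun π C, ∀ g g',
      (P : Subgroup π.ker).index • f g g' = g • B g' - B (g * g') + B g := by
  classical
  rw [H2.map_mk, H2.mk_eq_zero_iff] at h0
  obtain ⟨b, hb⟩ := h0
  let z : Z2 π.ker C :=
    ⟨fun a a' => f a a' 1, (compat_evalOne le_rfl).mem_Z2 hf⟩
  have h1 : (P : Subgroup π.ker).index • H2.mk z = 0 := by
    refine index_nsmul_H2_eq_zero _ _ ?_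
    rw [H2.map_mk, H2.mk_eq_zero_iff]
    refine ⟨fun a => b ⟨π.ker.subtype a, Subgroup.mem_map_of_mem _ a.2⟩, fun a a' => ?_⟩
    exact hb ⟨π.ker.subtype a, Subgroup.mem_map_of_mem _ a.2⟩
      ⟨π.ker.subtype a', Subgroup.mem_map_of_mem _ a'.2⟩
  rw [← map_nsmul, H2.mk_eq_zero_iff] at h1
  obtain ⟨β, hβ⟩ := h1
  refine exists_qd1 hπ (f := fun g g' => (P : Subgroup π.ker).index • f g g')
    (AddSubgroup.nsmul_mem _ hf _) (β := fun g => if hg : g ∈ π.ker then β ⟨g, hg⟩ else 0)
    fun h h' hh hh' => ?_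
  show ((P : Subgroup π.ker).index • f h h') 1 = h • (if hg : h' ∈ π.ker then β ⟨h', hg⟩ else 0)
    - (if hg : h * h' ∈ π.ker then β ⟨h * h', hg⟩ else 0)
    + (if hg : h ∈ π.ker then β ⟨h, hg⟩ else 0)
  rw [dif_pos (show h ∈ π.ker from hh), dif_pos (show h' ∈ π.ker from hh'),
    dif_pos (mul_mem (show h ∈ π.ker from hh) (show h' ∈ π.ker from hh'))]
  exact hβ ⟨h, hh⟩ ⟨h', hh'⟩

variable [Fintype Q]

/-- A class with values in functions on the quotient whose sum over the quotient vanishes is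
killed by a number prime to `p`. -/
theorem exists_cobound_of_sum (hπ : Function.Surjective π)
    (hgen : ∃ u : H2 G C, ∀ j : ℕ, j • u = 0 → pPart p G ∣ j)
    (hbound : ∀ K : Subgroup G, IsPGroup p K →
      Finite (H2 K C) ∧ Nat.card (H2 K C) ≤ Nat.card K)
    {f : G → G → QFun π C} (hf : f ∈ Z2 G (QFun π C))
    {b : G → C} (hb : ∀ g g', ∑ x, f g g' x = g • b g' - b (g * g') + b g) :
    ∃ (m : ℕ) (B : G → QFun π C), ¬p ∣ m ∧ ∀ g g', m • f g g' = g • B g' - B (g * g') + B g := by
  classical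
  have := Fintype.ofFinite G
  obtain ⟨u, hu⟩ := hgen
  obtain ⟨u₀, rfl⟩ := H2.mk_surjective u
  obtain ⟨P⟩ : Nonempty (Sylow p π.ker) := inferInstance
  set K := (P : Subgroup π.ker).map π.ker.subtype
  have hKp : IsPGroup p K := P.isPGroup'.map π.ker.subtype
  obtain ⟨hfin, hle⟩ := hbound K hKp
  have := hfin
  set m := (P : Subgroup π.ker).index
  have hm : ¬p ∣ m := P.not_dvd_index
  have hcardK : Nat.card K = Nat.card (P : Subgroup π.ker) :=
    Nat.card_congr ((P : Subgroup π.ker).equivMapOfInjective _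
      π.ker.subtype_injective).symm.toEquiv
  obtain ⟨k, hk⟩ := IsPGroup.iff_card.1 hKp
  have hkcop : (Nat.card K).Coprime (pCompl p G) := by
    rw [hk]
    exact ((Nat.Prime.coprime_iff_not_dvd hp.out).2 (not_dvd_pCompl (p := p) (G := G))).pow_left k
  set ev := H2.map K.subtype (QFun.evalOne (π := π) (A := C))
    (compat_evalOne (Subgroup.map_subtype_le _))
  set res := H2.map K.subtype (AddMonoidHom.id C) (CompatPair.subtype K)
  have hres : ∀ j : ℕ, j • res (H2.mk u₀) = 0 → Nat.card K ∣ j := fun j hj => by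
    have h1 := index_nsmul_H2_eq_zero K (j • H2.mk u₀) (by rw [map_nsmul]; exact hj)
    rw [← mul_smul] at h1
    have h2 : Nat.card G ∣ pCompl p G * (K.index * j) := by
      rw [← pPart_mul_pCompl (p := p) (G := G), mul_comm (pPart p G)]
      exact Nat.mul_dvd_mul_left _ (hu _ h1)
    rw [← K.index_mul_card, ← mul_assoc, mul_comm (pCompl p G), mul_assoc] at h2
    exact hkcop.dvd_of_dvd_mul_left ((Nat.mul_dvd_mul_iff_left
      (Nat.pos_of_ne_zero Subgroup.index_ne_zero_of_finite)).1 h2)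
  have hfo : IsOfFinAddOrder (res (H2.mk u₀)) := isOfFinAddOrder_of_finite _
  have htop : AddSubgroup.zmultiples (res (H2.mk u₀)) = ⊤ := by
    refine AddSubgroup.eq_top_of_le_card _ ?_
    rw [Nat.card_zmultiples]
    exact hle.trans (Nat.le_of_dvd (addOrderOf_pos _) (hres _ (addOrderOf_nsmul_eq_zero _)))
  obtain ⟨j, hj⟩ : ∃ j : ℕ, ev (H2.mk ⟨f, hf⟩) = j • res (H2.mk u₀) := by
    have hmem : ev (H2.mk ⟨f, hf⟩) ∈ AddSubgroup.zmultiples (res (H2.mk u₀)) := by
      rw [htop]; exact AddSubgroup.mem_top _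
    obtain ⟨j, hj⟩ := (AddSubmonoid.mem_multiples_iff _ _).1
      (hfo.mem_multiples_iff_mem_zmultiples.2 hmem)
    exact ⟨j, hj.symm⟩
  -- subtract the constant class
  let f' : G → G → QFun π C := fun g g' =>
    f g g' - QFun.const (j • (u₀ : G → G → C) g g')
  have hf' : f' ∈ Z2 G (QFun π C) :=
    sub_mem hf ((QFun.compat_const (π := π)).mem_Z2
      (c := fun g g' => j • (u₀ : G → G → C) g g') (AddSubgroup.nsmul_mem _ u₀.2 j))
  have hev : ev (H2.mk ⟨f', hf'⟩) = 0 := by
    refine Eq.trans ?_ (sub_eq_zero.2 hj)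
    simp only [res, ev, H2.map_mk, ← map_nsmul, ← map_sub]
    rfl
  obtain ⟨B, hB⟩ := exists_cobound_of_sylow hπ hf' P hev
  -- the sum over the quotient
  have hsum : (m * (Fintype.card Q * j)) • H2.mk u₀ = 0 := by
    rw [← map_nsmul, H2.mk_eq_zero_iff]
    obtain ⟨B', hB'⟩ : ∃ B' : G → Q → C, ∀ γ x, B' γ x = B γ x := ⟨_, fun _ _ => rfl⟩
    refine ⟨fun g => m • b g - ∑ x, B' g x, fun g g' => ?_⟩
    obtain ⟨F, hF⟩ : ∃ F : Q → C, ∀ x, F x = f g g' x := ⟨_, fun _ => rfl⟩
    have hbF : ∑ x, F x = g • b g' - b (g * g') + b g :=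
      (Finset.sum_congr rfl fun x _ => hF x).trans (hb g g')
    have h1 : ∑ x, m • (F x - j • (u₀ : G → G → C) g g')
        = ∑ x, (g • B' g' ((π g)⁻¹ * x) - B' (g * g') x + B' g x) :=
      Finset.sum_congr rfl fun x _ => by
        rw [hF, hB', hB', hB']
        exact congrFun (hB g g') x
    rw [← Finset.smul_sum, Finset.sum_sub_distrib, Finset.sum_const, Finset.card_univ, hbF,
      Finset.sum_add_distrib, Finset.sum_sub_distrib, ← Finset.smul_sum,
      Fintype.sum_equiv (Equiv.mulLeft (π g)⁻¹) (fun x => B' g' ((π g)⁻¹ * x)) (B' g') fun _ => rfl,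
      nsmul_sub, nsmul_add, nsmul_sub, ← smul_comm g m] at h1
    show (m * (Fintype.card Q * j)) • (u₀ : G → G → C) g g'
      = g • (m • b g' - ∑ x, B' g' x) - (m • b (g * g') - ∑ x, B' (g * g') x)
        + (m • b g - ∑ x, B' g x)
    rw [mul_smul, mul_smul, smul_sub g]
    generalize m • Fintype.card Q • j • (u₀ : G → G → C) g g' = X at h1 ⊢
    generalize m • b g' = a1 at h1 ⊢
    generalize m • b (g * g') = a2 at h1 ⊢
    generalize m • b g = a3 at h1 ⊢
    linear_combination (norm := abel) -h1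
  have hKj : Nat.card K ∣ j := by
    have hQ : Nat.card G = Fintype.card Q * (m * Nat.card K) := by
      rw [hcardK, Subgroup.index_mul_card, ← Subgroup.index_mul_card π.ker, Subgroup.index_ker,
        MonoidHom.range_eq_top.2 hπ, Subgroup.card_top, Nat.card_eq_fintype_card]
    have h2 : Nat.card G ∣ pCompl p G * (m * (Fintype.card Q * j)) := by
      rw [← pPart_mul_pCompl (p := p) (G := G), mul_comm (pPart p G)]
      exact Nat.mul_dvd_mul_left _ (hu _ hsum)
    rw [hQ, show pCompl p G * (m * (Fintype.card Q * j))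
      = Fintype.card Q * (m * (pCompl p G * j)) by ring] at h2
    exact hkcop.dvd_of_dvd_mul_left ((Nat.mul_dvd_mul_iff_left
      (Nat.pos_of_ne_zero Subgroup.index_ne_zero_of_finite)).1
      ((Nat.mul_dvd_mul_iff_left Fintype.card_pos).1 h2))
  have h00 : ev (H2.mk ⟨f, hf⟩) = 0 := by
    obtain ⟨i, rfl⟩ := hKj
    rw [hj, mul_smul, card_nsmul_H2]
  obtain ⟨B₀, hB₀⟩ := exists_cobound_of_sylow hπ hf P h00
  exact ⟨m, B₀, hm, hB₀⟩

end FLTAgent.GWEuler.LocTwo
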