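import Fermat.Agent.GlobalDuality.Shapiro

/-!
# Cochains with values in functions on a quotient

These functions form a coinduced module `QFun`: cocycles of degree one and two are detected on
the kernel (`exists_qd0`, `exists_qd1`) and cochains of a subgroup induce cochains of the group
(`ind1`, `ind2`).
-/

set_option autoImplicit false
set_option linter.unusedSectionVars false

noncomputable section

namespace FLTAgent.GWEuler.LocTwo

open FLTAgent.GalCoh

variable {G : Type} [Group G] {Q : Type} [Group Q]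

/-- Functions on a quotient with values in a module. -/
def QFun (_π : G →* Q) (A : Type) : Type := Q → A

variable {π : G →* Q} {A : Type} [AddCommGroup A]

instance : AddCommGroup (QFun π A) := inferInstanceAs (AddCommGroup (Q → A))

theorem QFun.add_apply (f f' : QFun π A) (x : Q) : (f + f') x = f x + f' x := rfl
theorem QFun.sub_apply (f f' : QFun π A) (x : Q) : (f - f') x = f x - f' x := rfl
theorem QFun.zero_apply (x : Q) : (0 : QFun π A) x = 0 := rfl
theorem QFun.neg_apply (f : QFun π A) (x : Q) : (-f) x = - f x := rfl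
theorem QFun.nsmul_apply (n : ℕ) (f : QFun π A) (x : Q) : (n • f) x = n • f x := rfl

theorem QFun.ext {f f' : QFun π A} (h : ∀ x, f x = f' x) : f = f' := funext h

variable [DistribMulAction G A]

instance : DistribMulAction G (QFun π A) where
  smul g f := fun x => g • f ((π g)⁻¹ * x)
  one_smul f := funext fun x => by
    show (1 : G) • f ((π 1)⁻¹ * x) = f x
    rw [map_one, inv_one, one_mul, one_smul]
  mul_smul g h f := funext fun x => by
    show (g * h) • f ((π (g * h))⁻¹ * x) = g • h • f ((π h)⁻¹ * ((π g)⁻¹ * x))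
    rw [mul_smul, map_mul, mul_inv_rev, mul_assoc]
  smul_zero g := funext fun _ => smul_zero g
  smul_add g f f' := funext fun _ => smul_add g _ _

theorem QFun.smul_apply (g : G) (f : QFun π A) (x : Q) : (g • f) x = g • f ((π g)⁻¹ * x) := rfl

/-- Evaluation at the identity coset. -/
def QFun.evalOne : QFun π A →+ A where
  toFun f := f 1
  map_zero' := rfl
  map_add' _ _ := rfl

/-- A one-cocycle which is a coboundary on the kernel is a coboundary. -/
theorem exists_qd0 (hπ : Function.Surjective π) {f : G → QFun π A} (hf : f ∈ Z1 G (QFun π A))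
    {k : A} (hk : ∀ h, π h = 1 → f h 1 = h • k - k) :
    ∃ K : QFun π A, ∀ g, f g = g • K - K := by
  choose s hs using hπ
  let K₀ : QFun π A := fun x => s x • (s 1)⁻¹ • k
  have hK₀ : K₀ 1 = k := smul_inv_smul _ _
  set f' : G → QFun π A := fun g => f g - (g • K₀ - K₀)
  have hf'1 : f' ∈ Z1 G (QFun π A) := sub_mem hf (B1_le_Z1 ⟨K₀, rfl⟩)
  have hker : ∀ h, π h = 1 → f' h 1 = 0 := fun h hh => by
    show (f h - (h • K₀ - K₀)) 1 = 0
    rw [QFun.sub_apply, QFun.sub_apply, QFun.smul_apply, hh, inv_one, one_mul, hK₀, hk h hh,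
      sub_self]
  let φ : QFun π A := fun x => f' (s x) x
  have hφ : ∀ g x, π g = x → f' g x = φ x := fun g x hx => by
    have hh : π ((s x)⁻¹ * g) = 1 := by rw [map_mul, map_inv, hs, hx, inv_mul_cancel]
    have h1 : g = s x * ((s x)⁻¹ * g) := (mul_inv_cancel_left _ _).symm
    rw [h1, mem_Z1_iff.1 hf'1, QFun.add_apply, QFun.smul_apply, hs, inv_mul_cancel, hker _ hh,
      smul_zero, zero_add]
  refine ⟨K₀ - φ, fun g => QFun.ext fun x => ?_⟩
  have h1 := hφ (g * s ((π g)⁻¹ * x)) x (by rw [map_mul, hs, mul_inv_cancel_left])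
  rw [mem_Z1_iff.1 hf'1, QFun.add_apply, QFun.smul_apply, hφ _ _ (hs _)] at h1
  have h2 : f' g x = f g x - ((g • K₀) x - K₀ x) := rfl
  rw [smul_sub, QFun.sub_apply, QFun.sub_apply, QFun.sub_apply, QFun.smul_apply g φ, ← h1, h2]
  abel

/-- A two-cocycle which is a coboundary on the kernel is a coboundary. -/
theorem exists_qd1 (hπ : Function.Surjective π) {f : G → G → QFun π A}
    (hf : f ∈ Z2 G (QFun π A)) {β : G → A}
    (hβ : ∀ h h', π h = 1 → π h' = 1 → f h h' 1 = h • β h' - β (h * h') + β h) :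
    ∃ B : G → QFun π A, ∀ g g', f g g' = g • B g' - B (g * g') + B g := by
  have hc : CompatPair π.ker.subtype (QFun.evalOne (π := π) (A := A)) := ⟨fun h φ => by
    show (h : G) • φ ((π h)⁻¹ * 1) = (h : G) • φ 1
    rw [MonoidHom.mem_ker.1 h.2, inv_one, one_mul]⟩
  obtain ⟨b, hb, hdb⟩ := shapiro2 hc Subtype.val_injective hf (β := fun h : π.ker => β h)
    fun h h' => hβ h h' (MonoidHom.mem_ker.1 h.2) (MonoidHom.mem_ker.1 h'.2)
  choose s hs using hπ
  let B : G → QFun π A := fun g x => (s x⁻¹)⁻¹ • b g (s x⁻¹)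
  have hB : ∀ g x σ, π σ = x⁻¹ → B g x = σ⁻¹ • b g σ := fun g x σ hσ => by
    have hh : σ * (s x⁻¹)⁻¹ ∈ π.ker := by
      rw [MonoidHom.mem_ker, map_mul, map_inv, hs, hσ, mul_inv_cancel]
    have h1 := hb g ⟨_, hh⟩ (s x⁻¹)
    rw [Subgroup.coe_subtype, inv_mul_cancel_right, Subgroup.smul_def] at h1
    show (s x⁻¹)⁻¹ • b g (s x⁻¹) = σ⁻¹ • b g σ
    rw [h1, ← mul_smul]
    congr 1
    group
  refine ⟨B, fun g g' => QFun.ext fun x => ?_⟩
  set σ := s x⁻¹
  have h1 : σ • f g g' x = b g' (σ * g) - b (g * g') σ + b g σ := by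
    rw [← hdb]
    show σ • f g g' x = σ • f g g' ((π σ)⁻¹ * 1)
    rw [hs, inv_inv, mul_one]
  rw [QFun.add_apply, QFun.sub_apply, QFun.smul_apply, hB g' _ (σ * g) (by
    rw [map_mul, hs, mul_inv_rev, inv_inv]), hB (g * g') x σ (hs _), hB g x σ (hs _),
    mul_inv_rev, mul_smul, smul_inv_smul, ← smul_sub, ← smul_add, ← h1, inv_smul_smul]

/-! ### From a subgroup to the group -/

section Induction

variable {D : Type} [Group D] (j : D →* G)

open Classical in
/-- A representative of a right coset, trivial on the subgroup. -/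
def cosetR (σ : G) : G :=
  if σ ∈ j.range then 1 else (Quotient.mk (QuotientGroup.rightRel j.range) σ).out

theorem exists_cosetD (σ : G) : ∃ d : D, σ = j d * cosetR j σ := by
  unfold cosetR
  split_ifs with h
  · obtain ⟨d, rfl⟩ := h
    exact ⟨d, (mul_one _).symm⟩
  · have h1 : (QuotientGroup.rightRel j.range) (Quotient.mk _ σ).out σ :=
      Quotient.exact (s := QuotientGroup.rightRel j.range) (Quotient.out_eq _)
    obtain ⟨d, hd⟩ := QuotientGroup.rightRel_apply.1 h1
    exact ⟨d, by rw [hd, inv_mul_cancel_right]⟩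

/-- The component in the subgroup. -/
def cosetD (σ : G) : D := (exists_cosetD j σ).choose

theorem cosetD_spec (σ : G) : σ = j (cosetD j σ) * cosetR j σ := (exists_cosetD j σ).choose_spec

theorem cosetR_mul (d : D) (σ : G) : cosetR j (j d * σ) = cosetR j σ := by
  unfold cosetR
  have hiff : j d * σ ∈ j.range ↔ σ ∈ j.range :=
    Subgroup.mul_mem_cancel_left _ ⟨d, rfl⟩
  by_cases h : σ ∈ j.range
  · rw [if_pos h, if_pos (hiff.2 h)]
  · rw [if_neg h, if_neg (hiff.not.2 h)]
    refine congrArg Quotient.out (Quotient.sound (s := QuotientGroup.rightRel j.range)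
      (QuotientGroup.rightRel_apply.2 ⟨d⁻¹, ?_⟩))
    rw [map_inv, mul_inv_rev, ← mul_assoc, mul_inv_cancel, one_mul]

variable {j} (hj : Function.Injective j)
include hj

theorem cosetD_mul (d : D) (σ : G) : cosetD j (j d * σ) = d * cosetD j σ := hj (by
  have h := cosetD_spec j (j d * σ)
  rw [cosetR_mul] at h
  refine mul_right_cancel (b := cosetR j σ) ?_
  rw [← h, map_mul, mul_assoc, ← cosetD_spec])

theorem cosetR_one : cosetR j 1 = 1 := if_pos (one_mem _)

theorem cosetD_one : cosetD j 1 = 1 := hj (by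
  have h := cosetD_spec j 1
  rw [cosetR_one hj, mul_one] at h
  rw [← h, map_one])

omit hj

variable (j) in
/-- The cocycle of the coset action. -/
def kap (σ g : G) : D := cosetD j (cosetR j σ * g)

include hj

theorem kap_mul_left (d : D) (σ g : G) : kap j (j d * σ) g = kap j σ g := by
  rw [kap, kap, cosetR_mul]

theorem cosetR_mul_eq (σ g : G) :
    cosetR j σ * g = j (kap j σ g) * cosetR j (σ * g) := by
  have h : cosetR j (cosetR j σ * g) = cosetR j (σ * g) := by
    conv_rhs => rw [cosetD_spec j σ, mul_assoc, cosetR_mul]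
  rw [← h]
  exact cosetD_spec j _

theorem cosetD_mul_right (σ g : G) : cosetD j (σ * g) = cosetD j σ * kap j σ g := by
  conv_lhs => rw [cosetD_spec j σ, mul_assoc, cosetD_mul hj]
  rfl

theorem kap_mul (σ g h : G) : kap j σ (g * h) = kap j σ g * kap j (σ * g) h := by
  rw [kap, ← mul_assoc, cosetR_mul_eq hj, mul_assoc, cosetD_mul hj]
  rfl

theorem kap_one_map (d : D) : kap j 1 (j d) = d := by
  rw [kap, cosetR_one hj, one_mul, ← mul_one (j d), cosetD_mul hj, cosetD_one hj, mul_one]

theorem kap_map_map (d d' : D) : kap j (j d) (j d') = d' := by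
  rw [← mul_one (j d), kap_mul_left hj, kap_one_map hj]

omit hj

variable {E : Type} [AddCommGroup E] [DistribMulAction D E] (π)

/-- A one-cochain of the subgroup as a cochain of the group. -/
def ind1 (B : D → QFun (π.comp j) E) (g : G) (x : Q) (σ : G) : E :=
  cosetD j σ • B (kap j σ g) (π (cosetR j σ) * x)

/-- A two-cochain of the subgroup as a cochain of the group. -/
def ind2 (F : D → D → QFun (π.comp j) E) (g h : G) (x : Q) (σ : G) : E :=
  cosetD j σ • F (kap j σ g) (kap j (σ * g) h) (π (cosetR j σ) * x)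

include hj

theorem ind1_equiv (B : D → QFun (π.comp j) E) (g : G) (x : Q) (d : D) (σ : G) :
    ind1 π B g x (j d * σ) = d • ind1 π B g x σ := by
  rw [ind1, ind1, cosetD_mul hj, cosetR_mul, kap_mul_left hj, mul_smul]

theorem ind2_equiv (F : D → D → QFun (π.comp j) E) (g h : G) (x : Q) (d : D) (σ : G) :
    ind2 π F g h x (j d * σ) = d • ind2 π F g h x σ := by
  rw [ind2, ind2, cosetD_mul hj, cosetR_mul, kap_mul_left hj, mul_assoc (j d), kap_mul_left hj,
    mul_smul]

theorem cosetR_shift (σ g : G) (x : Q) :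
    π (cosetR j (σ * g)) * ((π g)⁻¹ * x)
      = ((π.comp j) (kap j σ g))⁻¹ * (π (cosetR j σ) * x) := by
  have h := congrArg π (cosetR_mul_eq hj σ g)
  rw [map_mul, map_mul] at h
  show _ = (π (j (kap j σ g)))⁻¹ * _
  rw [← mul_assoc, ← mul_assoc]
  congr 1
  rw [eq_inv_mul_iff_mul_eq, ← mul_assoc, ← h, mul_inv_cancel_right]

theorem ind2_cocycle {F : D → D → QFun (π.comp j) E} (hF : F ∈ Z2 D (QFun (π.comp j) E))
    (g h k : G) (x : Q) (σ : G) :
    ind2 π F (g * h) k x σ + ind2 π F g h x σ
      = ind2 π F h k ((π g)⁻¹ * x) (σ * g) + ind2 π F g (h * k) x σ := by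
  rw [ind2, ind2, ind2, ind2, cosetD_mul_right hj, cosetR_shift π hj, mul_smul, ← smul_add,
    ← smul_add, kap_mul hj σ g h, kap_mul hj (σ * g) h k, ← mul_assoc σ g h]
  refine congrArg (cosetD j σ • ·) ?_
  exact congrFun (hF (kap j σ g) (kap j (σ * g) h) (kap j (σ * g * h) k)) (π (cosetR j σ) * x)

theorem ind1_d {B : D → QFun (π.comp j) E} {F : D → D → QFun (π.comp j) E}
    (hB : ∀ d d', F d d' = d • B d' - B (d * d') + B d) (g h : G) (x : Q) (σ : G) :
    ind2 π F g h x σ
      = ind1 π B h ((π g)⁻¹ * x) (σ * g) - ind1 π B (g * h) x σ + ind1 π B g x σ := by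
  rw [ind1, ind1, ind1, ind2, cosetD_mul_right hj, cosetR_shift π hj, mul_smul, ← smul_sub,
    ← smul_add, kap_mul hj σ g h, hB]
  rfl

theorem ind2_base (F : D → D → QFun (π.comp j) E) (d d' : D) (x : Q) :
    ind2 π F (j d) (j d') x 1 = F d d' x := by
  rw [ind2, cosetD_one hj, one_smul, kap_one_map hj, one_mul, kap_map_map hj, cosetR_one hj,
    map_one, one_mul]

end Induction

end FLTAgent.GWEuler.LocTwo
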