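import Fermat.Agent.GWEuler.LocTwo.Defs
import Fermat.Agent.GWEuler.SLevelSeq

/-!
# The rank of localisation in degree two

The image of `H²_S(M^∨(1))` in the local groups is the annihilator of the global invariants
(`finrank_range_locTotal₂S`): one inclusion is reciprocity, the other follows from the regular
module of a layer on which `M` is trivial (`TwoSurj.of_trivial`).
-/

set_option autoImplicit false

noncomputable section

open CategoryTheory Module groupCohomology ExtCitation

namespace FLTAgent.GWEuler.LocTwo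

open FLTAgent.LocalDuality FLTAgent.GalCoh FLTAgent.GlobalDuality

variable {p : ℕ} [Fact p.Prime]

local notation "Γℚ" => AlgebraicClosure ℚ ≃ₐ[ℚ] AlgebraicClosure ℚ

/-- For odd `p` there is no `H²` at the archimedean place. -/
theorem h2_archimedean_eq_zero (hp2 : p ≠ 2) (A : Rep.{0} (ZMod p) archimedeanDecomposition)
    (z : continuousH2 archimedeanLoc A) : z = 0 := by
  classical
  have : Finite archimedeanDecomposition :=
    Finite.of_surjective (fun b : Bool => if b then archimedeanGen else 1) fun g => by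
      rcases sq_archimedean_eq_one g with rfl | rfl
      · exact ⟨false, rfl⟩
      · exact ⟨true, rfl⟩
  have := Fintype.ofFinite archimedeanDecomposition
  obtain ⟨c, rfl⟩ := cls₂_surjective z
  have hm : (Fintype.card archimedeanDecomposition : ZMod p) ≠ 0 := by
    have hle : Fintype.card archimedeanDecomposition ≤ 2 := by
      refine le_trans (Fintype.card_le_of_surjective
        (fun b : Bool => if b then archimedeanGen else 1) fun g => ?_) (by simp)
      rcases sq_archimedean_eq_one g with rfl | rfl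
      · exact ⟨false, rfl⟩
      · exact ⟨true, rfl⟩
    intro h
    have := Nat.le_of_dvd Fintype.card_pos ((ZMod.natCast_eq_zero_iff _ _).mp h)
    have := (Fact.out : p.Prime).two_le
    omega
  set m := (Fintype.card archimedeanDecomposition : ZMod p)
  set f : archimedeanDecomposition × archimedeanDecomposition → A := c.1 with hf
  refine cls₂_eq_zero_iff.mpr ⟨fun g => m⁻¹ • ∑ h, f (g, h), ?_, funext fun ⟨g, h⟩ => ?_⟩
  · obtain ⟨F, hF, hF'⟩ := c.2.2
    refine ⟨F, hF, fun g s hs => congrArg (m⁻¹ • ·) (Finset.sum_congr rfl fun h _ => ?_)⟩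
    have := hF' g h s 1 hs (by rw [map_one]; exact one_mem _)
    rwa [mul_one] at this
  · have hc := (mem_cocycles₂_iff _).mp c.2.1
    have key : (∑ j, f (g * h, j)) + m • f (g, h)
        = A.ρ g (∑ j, f (h, j)) + ∑ j, f (g, j) := by
      have hsum := Finset.sum_congr (s₁ := Finset.univ) rfl
        fun j (_ : j ∈ (Finset.univ : Finset archimedeanDecomposition)) => hc g h j
      rw [Finset.sum_add_distrib, Finset.sum_add_distrib, Finset.sum_const, Finset.card_univ,
        Fintype.sum_equiv (Equiv.mulLeft h) (fun j => f (g, h * j)) (fun j => f (g, j))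
          fun _ => rfl] at hsum
      rw [map_sum, Nat.cast_smul_eq_nsmul]
      exact hsum
    show (d₁₂ A).hom (fun g => m⁻¹ • ∑ h, f (g, h)) (g, h) = f (g, h)
    rw [LocalDuality.d₁₂_apply, map_smul, ← smul_sub, ← smul_add, sub_add_eq_add_sub, ← key,
      add_sub_cancel_left, inv_smul_smul₀ hm]

section Functor

variable {A B : Rep.{0} (ZMod p) Γℚ} (h : A →ₗ[ZMod p] B)
  (hh : ∀ (g : Γℚ) (a : A), h (A.ρ g a) = B.ρ g (h a))

/-- The transpose of a map between dual twists. -/
def twistMap : B.dualTwist (cycloChar p) →ₗ[ZMod p] A.dualTwist (cycloChar p) :=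
  (h.dualMap : Dual (ZMod p) B →ₗ[ZMod p] Dual (ZMod p) A)

include hh

theorem twistMap_equiv (g : Γℚ) (f : B.dualTwist (cycloChar p)) :
    twistMap h ((B.dualTwist (cycloChar p)).ρ g f)
      = (A.dualTwist (cycloChar p)).ρ g (twistMap h f) :=
  LinearMap.ext fun a => by
    show (cycloChar p g : ZMod p) * (show Dual (ZMod p) B from f) (B.ρ g⁻¹ (h a))
      = (cycloChar p g : ZMod p) * (show Dual (ZMod p) B from f) (h (A.ρ g⁻¹ a))
    rw [hh]

/-- A map on local invariants. -/
def invMapLoc (q : Nat.Primes) : (Rep.res (primeLocalToGlobal q) A).ρ.invariants →ₗ[ZMod p]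
    (Rep.res (primeLocalToGlobal q) B).ρ.invariants where
  toFun c := ⟨h c.1, fun g => by
    show B.ρ (primeLocalToGlobal q g) (h c.1) = h c.1
    rw [← hh]
    exact congrArg h (c.2 g)⟩
  map_add' _ _ := Subtype.ext (map_add h _ _)
  map_smul' _ _ := Subtype.ext (map_smul h _ _)

theorem thetaLoc_natural (R : Reciprocity p) {S : Finset Nat.Primes} (q : Nat.Primes)
    (z : continuousH2S S (B.dualTwist (cycloChar p)))
    (c : (Rep.res (primeLocalToGlobal q) A).ρ.invariants) :
    thetaLoc q R A (locRes₂S S (A.dualTwist (cycloChar p)) (primeLocalToGlobal q)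
        (mapHS₂ (twistMap h) (twistMap_equiv h hh) z)) c
      = thetaLoc q R B (locRes₂S S (B.dualTwist (cycloChar p)) (primeLocalToGlobal q) z)
          (invMapLoc h hh q c) := by
  rw [thetaLoc_apply, thetaLoc_apply]
  refine congrArg (R.inv q) ?_
  induction z using Submodule.Quotient.induction_on with
  | H c => rfl

end Functor

/-- Evaluation at a global invariant, as a map from the dual twist to `μ_p`. -/
theorem evBil_glob_equiv (M : Rep.{0} (ZMod p) Γℚ) (c : M.ρ.invariants) (g : Γℚ)
    (f : M.dualTwist (cycloChar p)) :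
    (evBil (cycloChar p) M c.1 : M.dualTwist (cycloChar p) →ₗ[ZMod p] ofChar (cycloChar p))
        ((M.dualTwist (cycloChar p)).ρ g f)
      = (ofChar (cycloChar p)).ρ g
        ((evBil (cycloChar p) M c.1 : M.dualTwist (cycloChar p) →ₗ[ZMod p] ofChar (cycloChar p))
          f) := by
  show (cycloChar p g : ZMod p) * (show Dual (ZMod p) M from f) (M.ρ g⁻¹ c.1)
    = (cycloChar p g : ZMod p) * (show Dual (ZMod p) M from f) c.1
  rw [show M.ρ g⁻¹ c.1 = c.1 from c.2 g⁻¹]

/-- Global classes kill the global invariants. -/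
theorem sum_thetaLoc_eq_zero (R : Reciprocity p) {S : Finset Nat.Primes} (hpS : pPrime p ∈ S)
    (M : Rep.{0} (ZMod p) Γℚ) (z : continuousH2S S (M.dualTwist (cycloChar p)))
    (c : M.ρ.invariants) :
    ∑ q : S, thetaLoc q.1 R M
      (locRes₂S S (M.dualTwist (cycloChar p)) (primeLocalToGlobal q.1) z) (invRes q.1 M c) = 0 := by
  refine Eq.trans (Finset.sum_congr rfl fun q _ => ?_) (R.sum_eq_zero S hpS
    (mapHS₂ (evBil (cycloChar p) M c.1 : M.dualTwist (cycloChar p) →ₗ[ZMod p] ofChar (cycloChar p))
      (evBil_glob_equiv M c) z))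
  rw [thetaLoc_apply]
  refine congrArg (R.inv q.1) ?_
  induction z using Submodule.Quotient.induction_on with
  | H c => rfl

/-- The case of the regular module gives every module trivial on the layer. -/
theorem TwoSurj.of_trivial {R : Reciprocity p} {S : Finset Nat.Primes} {L : Layer}
    (hfree : TwoSurj R S (permMod p L)) {M : Rep.{0} (ZMod p) Γℚ} [FiniteDimensional (ZMod p) M]
    (htriv : ∀ g ∈ L.sub, M.ρ g = 1) : TwoSurj R S M := by
  classical
  intro lam hlam
  let ρbar : Γℚ ⧸ L.sub →* (M →ₗ[ZMod p] M) :=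
    QuotientGroup.lift L.sub M.ρ fun g hg => MonoidHom.mem_ker.mpr (htriv g hg)
  let r := finrank (ZMod p) (Dual (ZMod p) M)
  let b : Basis (Fin r) (ZMod p) (Dual (ZMod p) M) := finBasis (ZMod p) (Dual (ZMod p) M)
  let h : Fin r → (M →ₗ[ZMod p] permMod p L) := fun i =>
    (LinearMap.pi fun x => (b i).comp (ρbar x⁻¹) : M →ₗ[ZMod p] (Γℚ ⧸ L.sub → ZMod p))
  have hh : ∀ i (g : Γℚ) (m : M), h i (M.ρ g m) = (permMod p L).ρ g (h i m) := fun i g m => by
    refine funext fun x => ?_
    refine Eq.trans ?_ (permMod_apply L g _ x).symm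
    show b i (ρbar x⁻¹ (ρbar (g : Γℚ ⧸ L.sub) m)) = b i (ρbar (g⁻¹ • x)⁻¹ m)
    rw [← Module.End.mul_apply, ← map_mul]
    obtain ⟨y, rfl⟩ := QuotientGroup.mk_surjective x
    rfl
  have hinj : ∀ m m' : M, (∀ i, h i m = h i m') → m = m' := fun m m' hm => by
    refine Module.eval_apply_injective (ZMod p) (b.ext fun i => ?_)
    have := congrFun (show (show Γℚ ⧸ L.sub → ZMod p from h i m)
      = (show Γℚ ⧸ L.sub → ZMod p from h i m') from hm i) 1
    change b i (ρbar 1⁻¹ m) = b i (ρbar 1⁻¹ m') at this
    rwa [inv_one, map_one] at this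
  let W := ∀ q : S, (Rep.res (primeLocalToGlobal q.1) M).ρ.invariants
  let V := Fin r → ∀ q : S, (Rep.res (primeLocalToGlobal q.1) (permMod p L)).ρ.invariants
  let H : W →ₗ[ZMod p] V :=
    LinearMap.pi fun i => LinearMap.pi fun q => (invMapLoc (h i) (hh i) q.1).comp (LinearMap.proj q)
  let D : (Fin r → (permMod p L).ρ.invariants) →ₗ[ZMod p] V :=
    LinearMap.pi fun i => LinearMap.pi fun q => (invRes q.1 (permMod p L)).comp (LinearMap.proj i)
  let Λ : Dual (ZMod p) W := ∑ q, (lam q).comp (LinearMap.proj q)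
  have hΛ : Λ ∈ LinearMap.range ((LinearMap.range D).mkQ.comp H).dualMap := by
    rw [LinearMap.range_dualMap_eq_dualAnnihilator_ker, Submodule.mem_dualAnnihilator]
    intro w hw
    rw [LinearMap.mem_ker, LinearMap.comp_apply, Submodule.mkQ_apply,
      Submodule.Quotient.mk_eq_zero] at hw
    obtain ⟨f, hf⟩ := hw
    have hf' : ∀ i (q : S), h i (w q).1 = (f i).1 := fun i q =>
      (congrArg Subtype.val (congrFun (congrFun hf i) q)).symm
    show (∑ q, (lam q).comp (LinearMap.proj q) : Dual (ZMod p) W) w = 0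
    rw [LinearMap.sum_apply]
    rcases isEmpty_or_nonempty S with hS | ⟨⟨q₀⟩⟩
    · simp
    have hm : (w q₀).1 ∈ M.ρ.invariants := fun g => hinj _ _ fun i => by
      rw [hh, hf', show (permMod p L).ρ g (f i).1 = (f i).1 from (f i).2 g]
    have hw : ∀ q : S, w q = invRes q.1 M ⟨_, hm⟩ := fun q =>
      Subtype.ext (hinj _ _ fun i => by
        rw [hf', show ((invRes q.1 M) ⟨_, hm⟩).1 = (w q₀).1 from rfl, hf'])
    refine Eq.trans (Finset.sum_congr rfl fun q _ => ?_) (hlam ⟨_, hm⟩)
    rw [LinearMap.comp_apply, LinearMap.proj_apply, hw q]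
  obtain ⟨ψ', hψ'⟩ := hΛ
  let ψ : Dual (ZMod p) V := ψ'.comp (LinearMap.range D).mkQ
  have hψD : ∀ f, ψ (D f) = 0 := fun f => by
    show ψ' _ = 0
    rw [Submodule.mkQ_apply, (Submodule.Quotient.mk_eq_zero _).mpr (LinearMap.mem_range_self D f),
      map_zero]
  let μ : Fin r → ∀ q : S,
      Dual (ZMod p) (Rep.res (primeLocalToGlobal q.1) (permMod p L)).ρ.invariants := fun i q =>
    ψ.comp ((LinearMap.single (ZMod p) (fun _ : Fin r => ∀ q : S,
      (Rep.res (primeLocalToGlobal q.1) (permMod p L)).ρ.invariants) i).comp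
      (LinearMap.single (ZMod p)
        (fun q : S => (Rep.res (primeLocalToGlobal q.1) (permMod p L)).ρ.invariants) q))
  have hμ : ∀ i, ∀ c : (permMod p L).ρ.invariants,
      ∑ q : S, μ i q (invRes q.1 (permMod p L) c) = 0 := fun i c => by
    refine Eq.trans ?_ (hψD (Pi.single i c))
    show ∑ q : S, ψ _ = _
    rw [← map_sum]
    refine congrArg ψ (funext fun j => funext fun q => ?_)
    rw [Finset.sum_apply, Finset.sum_apply]
    simp only [LinearMap.comp_apply, LinearMap.single_apply]
    show _ = invRes q.1 (permMod p L)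
      ((Pi.single i c : Fin r → (permMod p L).ρ.invariants) j)
    by_cases hij : j = i
    · subst hij
      simp only [Pi.single_eq_same]
      rw [Finset.sum_eq_single q (fun q' _ hq => Pi.single_eq_of_ne hq.symm _)
        (fun hq => absurd (Finset.mem_univ q) hq), Pi.single_eq_same]
    · simp only [Pi.single_eq_of_ne hij]
      rw [map_zero]
      exact Finset.sum_eq_zero fun _ _ => rfl
  choose z hz using fun i => hfree (μ i) (hμ i)
  refine ⟨∑ i, mapHS₂ (twistMap (h i)) (twistMap_equiv (h i) (hh i)) (z i),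
    fun q => LinearMap.ext fun c => ?_⟩
  rw [map_sum, map_sum, LinearMap.sum_apply]
  simp only [thetaLoc_natural (h _) (hh _) R q.1, hz]
  refine Eq.trans ?_ (Eq.trans (LinearMap.congr_fun hψ' (Pi.single q c)) ?_)
  · show ∑ i, ψ _ = ψ _
    rw [← map_sum]
    refine congrArg ψ (funext fun j => funext fun q' => ?_)
    rw [Finset.sum_apply, Finset.sum_apply]
    show _ = invMapLoc (h j) (hh j) q'.1
      ((Pi.single q c : ∀ q : S, (Rep.res (primeLocalToGlobal q.1) M).ρ.invariants) q')
    refine Eq.trans (Finset.sum_eq_single j (fun i _ hi =>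
      congrFun (Pi.single_eq_of_ne (M := fun _ : Fin r => ∀ q : S,
        (Rep.res (primeLocalToGlobal q.1) (permMod p L)).ρ.invariants) hi.symm _) q')
      (fun hj => absurd (Finset.mem_univ j) hj)) ?_
    refine Eq.trans (congrFun (Pi.single_eq_same (M := fun _ : Fin r => ∀ q : S,
        (Rep.res (primeLocalToGlobal q.1) (permMod p L)).ρ.invariants) j _) q') ?_
    by_cases hq : q' = q
    · subst hq
      rw [Pi.single_eq_same]
      exact Pi.single_eq_same (M := fun q : S =>
        (Rep.res (primeLocalToGlobal q.1) (permMod p L)).ρ.invariants) q' _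
    · rw [Pi.single_eq_of_ne hq, map_zero]
      exact Pi.single_eq_of_ne (M := fun q : S =>
        (Rep.res (primeLocalToGlobal q.1) (permMod p L)).ρ.invariants) hq _
  · show (∑ q, (lam q).comp (LinearMap.proj q) : Dual (ZMod p) W) (Pi.single q c) = _
    rw [LinearMap.sum_apply]
    show ∑ q' : S, lam q'
      ((Pi.single q c : ∀ q : S, (Rep.res (primeLocalToGlobal q.1) M).ρ.invariants) q') = _
    rw [Finset.sum_eq_single q (fun q' _ hq => by rw [Pi.single_eq_of_ne hq, map_zero])
      (fun hq => absurd (Finset.mem_univ q) hq), Pi.single_eq_same]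

/-- For odd `p` the kernel of localisation only sees the places in `S`. -/
theorem mem_sha₂_iff (hp2 : p ≠ 2) {S : Finset Nat.Primes} (N : Rep.{0} (ZMod p) Γℚ)
    (z : continuousH2S S N) :
    z ∈ sha₂ S N ↔ ∀ q : S, locRes₂S S N (primeLocalToGlobal q.1) z = 0 := by
  refine LinearMap.mem_ker.trans ⟨fun h q => congrFun h (Sum.inr q), fun h => funext fun v => ?_⟩
  match v with
  | Sum.inl _ => exact h2_archimedean_eq_zero hp2 _ _
  | Sum.inr q => exact h q

/-- **The rank of localisation in degree two.** -/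
theorem finrank_range_locTotal₂S (hp2 : p ≠ 2) (R : Reciprocity p) {S : Finset Nat.Primes}
    (hpS : pPrime p ∈ S) {M : Rep.{0} (ZMod p) Γℚ} [FiniteDimensional (ZMod p) M]
    (hM : SLevel S M) (hsurj : TwoSurj R S M) :
    Module.Finite (ZMod p)
        (continuousH2S S (M.dualTwist (cycloChar p)) ⧸ sha₂ S (M.dualTwist (cycloChar p))) ∧
      finrank (ZMod p)
          (continuousH2S S (M.dualTwist (cycloChar p)) ⧸ sha₂ S (M.dualTwist (cycloChar p)))
          + finrank (ZMod p) M.ρ.invariants
        = ∑ q : S, finrank (ZMod p) (Rep.res (primeLocalToGlobal q.1) M).ρ.invariants := by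
  classical
  set M' := M.dualTwist (cycloChar p)
  have : ∀ q : S, FiniteDimensional (ZMod p) (Rep.res (primeLocalToGlobal q.1) M).ρ.invariants :=
    fun q => Module.Finite.of_injective ((Rep.res (primeLocalToGlobal q.1) M).ρ.invariants.subtype :
      _ →ₗ[ZMod p] M) Subtype.val_injective
  let W := ∀ q : S, (Rep.res (primeLocalToGlobal q.1) M).ρ.invariants
  let diag : M.ρ.invariants →ₗ[ZMod p] W := LinearMap.pi fun q => invRes q.1 M
  have hdiag : Function.Injective diag := fun a b h =>
    Subtype.ext (congrArg Subtype.val (congrFun h ⟨pPrime p, hpS⟩) :)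
  let Θ : continuousH2S S M' →ₗ[ZMod p] Dual (ZMod p) W :=
    ∑ q : S, (LinearMap.proj q : W →ₗ[ZMod p] _).dualMap.comp
      ((thetaLoc q.1 R M).comp (locRes₂S S M' (primeLocalToGlobal q.1)))
  have hΘ : ∀ z w, Θ z w
      = ∑ q : S, thetaLoc q.1 R M (locRes₂S S M' (primeLocalToGlobal q.1) z) (w q) := fun z w => by
    simp only [Θ, LinearMap.sum_apply, LinearMap.comp_apply, LinearMap.dualMap_apply]
    rfl
  have hrange : LinearMap.range Θ = (LinearMap.range diag).dualAnnihilator := by
    ext φ
    rw [Submodule.mem_dualAnnihilator, LinearMap.mem_range]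
    constructor
    · rintro ⟨z, rfl⟩ _ ⟨c, rfl⟩
      rw [hΘ]
      exact sum_thetaLoc_eq_zero R hpS M z c
    · intro hφ
      obtain ⟨z, hz⟩ := hsurj (fun q => φ.comp (LinearMap.single (ZMod p)
          (fun q : S => (Rep.res (primeLocalToGlobal q.1) M).ρ.invariants) q)) fun c => by
        refine Eq.trans ?_ (hφ _ ⟨c, rfl⟩)
        show ∑ q : S, φ (Pi.single q (invRes q.1 M c)) = φ (diag c)
        rw [← map_sum]
        exact congrArg φ (Finset.univ_sum_single (diag c))
      refine ⟨z, LinearMap.ext fun w => ?_⟩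
      rw [hΘ]
      refine (Finset.sum_congr rfl fun q _ => LinearMap.congr_fun (hz q) (w q)).trans ?_
      show ∑ q : S, φ (Pi.single q (w q)) = φ w
      rw [← map_sum, Finset.univ_sum_single]
  have hker : sha₂ S M' = LinearMap.ker Θ := by
    ext z
    rw [mem_sha₂_iff hp2, LinearMap.mem_ker]
    constructor
    · intro h
      refine LinearMap.ext fun w => (hΘ z w).trans (Finset.sum_eq_zero fun q _ => ?_)
      rw [h q, map_zero, LinearMap.zero_apply]
    · intro h q
      refine (thetaLoc_bijective q.1 R M hM).1 (LinearMap.ext fun c => ?_)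
      have := LinearMap.congr_fun h (Pi.single q c)
      rw [hΘ, Finset.sum_eq_single q (fun q' _ hq => by rw [Pi.single_eq_of_ne hq, map_zero])
        (fun hq => absurd (Finset.mem_univ q) hq), Pi.single_eq_same] at this
      refine this.trans ?_
      show (0 : ZMod p) = thetaLoc q.1 R M 0 c
      rw [map_zero]
      rfl
  let e : (continuousH2S S M' ⧸ sha₂ S M') ≃ₗ[ZMod p] LinearMap.range Θ :=
    Submodule.quotEquivOfEq _ _ hker ≪≫ₗ Θ.quotKerEquivRange
  have : Module.Finite (ZMod p) (LinearMap.range Θ) := Module.Finite.of_injective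
    (LinearMap.range Θ).subtype Subtype.val_injective
  refine ⟨Module.Finite.equiv e.symm, ?_⟩
  rw [e.finrank_eq, hrange, ← LinearMap.finrank_range_of_inj hdiag, add_comm,
    Subspace.finrank_add_finrank_dualAnnihilator_eq, Module.finrank_pi_fintype]

end FLTAgent.GWEuler.LocTwo
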